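/-
S59lib / LevelQ2 / Iface  (helper1)  — Project I, block LLsq: LEVEL LOWERING `q² → q` (Mazur's
principle at a prime of ADDITIVE reduction of `J₀(M q²)`), THE INTERFACE.

`W/ℤ` semistable, `p` odd, `ρ̄ = W[p]` irreducible, `q ≠ p` a prime, `q ∤ M`:
   `ρ̄` residually modular of level `M q²`  ⟹  `ρ̄` residually modular of level `M q`.
No automorphic type at `q` is ever identified (principal series and supercuspidal types at once), no
Jacquet–Langlands, no local–global compatibility: since `W` is semistable, `ρ̄` has a NON-ZERO vector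
fixed by the inertia group at `q` (unramified or unipotent), and

* `Q1WStmt`      `W[p] ↪ J₀(N)[p]`, `G_ℚ`-equivariant, Hecke-eigen with the eigenvalues `a_ℓ(W)`
                 (S44lib's Q1 / S43lib.B0's `Q1GenStmt` with `FreyTors P` replaced by `W[p]`);
* `InertiaFixedWStmt`  a non-zero point of `W[p]` fixed by `I_A`, `A ∣ q ≠ p` (S58lib `TateUnip`);
* `NonEisWStmt`  a test prime with `a_ℓ(W) ≢ ℓ + 1 (mod p)` (S44lib.NonEisStmt for `W`);
* `MazurQ2Stmt`  **the geometric statement** (Edixhoven's three-component fibre of `X₀(M q²)` at `q`,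
                 in the language of S36lib's `ThickDatum`): a non-zero class `x ∈ J₀(M q²)[p]`, fixed by
                 `I_A` and a Hecke eigenvector with a non-Eisenstein eigensystem `a`, forces a normalized
                 eigenform of level `M q` congruent to `a`;
* `levelQ2Block_of_stmts` : the assembly (proved here).
-/
import Mathlib
import Fermat.Agent.S43lib.B0.Iface
import Fermat.Agent.S13lib.PlaceOpen

set_option autoImplicit false
set_option linter.unusedSectionVars false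

noncomputable section

namespace Fermat.Agent.S59lib.LevelQ2

open ModularCurve Fermat.Agent.S19lib Fermat.Agent.S33lib Fermat.Agent.S44lib
open WeierstrassCurve WeierstrassCurve.Affine WeierstrassCurve.Affine.Point

local notation "Qb" => AlgebraicClosure ℚ
local notation "GQ" => (AlgebraicClosure ℚ ≃ₐ[ℚ] AlgebraicClosure ℚ)
local notation "Zbar" => integralClosure ℤ ℂ

/-- the group `W(ℚ̄)` of an integral model -/
abbrev WPts (W : WeierstrassCurve ℤ) : Type := ((W.map (Int.castRingHom ℚ))⁄Qb).Point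

/-- the `G_ℚ`-module `W[p]` -/
abbrev WTors (W : WeierstrassCurve ℤ) (p : ℕ) : Type :=
  Submodule.torsionBy ℤ (WPts W) ((p : ℕ) : ℤ)

/-- **Block LLsq, frozen vocabulary**: level lowering `q² → q` for a semistable curve. -/
def LevelQ2Block : Prop :=
  ∀ (p : ℕ), p.Prime → p ≠ 2 → ∀ W : WeierstrassCurve ℤ, W.Δ ≠ 0 → W.IsSemistableModel →
    W.ModRepIsIrreducible p → ∀ M q : ℕ, 0 < M → q.Prime → q ≠ p → ¬ q ∣ M →
      W.IsResiduallyModularOfLevel p (M * q ^ 2) → W.IsResiduallyModularOfLevel p (M * q)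

/-- **Q1 for `W`**: the module `W[p]` inside `J₀(N)[p]`, Hecke-eigen with the eigenvalues of `W`. -/
def Q1WStmt : Prop :=
  ∀ (p : ℕ), p.Prime → p ≠ 2 → ∀ W : WeierstrassCurve ℤ, W.Δ ≠ 0 → W.ModRepIsIrreducible p →
    ∀ (N : ℕ) [NeZero N] (f : CuspForm (CongruenceSubgroup.Gamma0 N) 2) (𝔪 : Ideal Zbar),
      f.IsNormalizedEigenform → 𝔪.IsMaximal → (p : Zbar) ∈ 𝔪 →
      CongruentTo f 𝔪 W.apOfModel (IsTestPrime W N p) →
      ∃ (V : AddSubgroup (JZero N)) (e : WTors W p ≃+ V),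
        V ≤ tors N (p : ℤ) ∧
        (∀ (σ : GQ) (x : WTors W p), ((e (σ • x) : V) : JZero N) = σ • ((e x : V) : JZero N)) ∧
        (∀ (ℓ : ℕ) (hℓ : ℓ.Prime), IsTestPrime W N p ℓ → ∀ x ∈ V,
          heckeOperatorBar N ⟨ℓ, hℓ⟩ x = (W.apOfModel ℓ) • x)

/-- **a non-zero inertia-fixed point of `W[p]`** at every prime `q ≠ p` (`W` semistable: good reduction
⟹ `I_A` acts trivially; multiplicative reduction ⟹ `S58lib.Mult.exists_fixed_of_multiplicative`). -/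
def InertiaFixedWStmt : Prop :=
  ∀ (p : ℕ), p.Prime → p ≠ 2 → ∀ W : WeierstrassCurve ℤ, W.Δ ≠ 0 → W.IsSemistableModel →
    ∀ q : ℕ, q.Prime → q ≠ p → ∀ A : ValuationSubring Qb, A.LiesOverPrime q →
      ∃ x : WTors W p, x ≠ 0 ∧ ∀ σ ∈ IA A, σ • (x : WPts W) = (x : WPts W)

/-- **`W[p]` is not Eisenstein**: a test prime with `a_ℓ(W) ≢ ℓ + 1 (mod p)`. -/
def NonEisWStmt : Prop :=
  ∀ (p : ℕ), p.Prime → p ≠ 2 → ∀ W : WeierstrassCurve ℤ, W.Δ ≠ 0 → W.ModRepIsIrreducible p →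
    ∀ N : ℕ, 0 < N → ∃ ℓ : ℕ, IsTestPrime W N p ℓ ∧ ¬ (p : ℤ) ∣ W.apOfModel ℓ - (ℓ + 1)

/-- **MP(q²), Mazur's principle at a prime of additive reduction** (the geometric statement): a non-zero
class of `J₀(M q²)[p]` (`q ∤ M`, `p ≠ q`), fixed by the inertia group of a place over `q` and a Hecke
eigenvector with a non-Eisenstein eigensystem `a` on a set `S` of primes prime to `M q p`, forces a
normalized eigenform of level `M q` congruent to `a` on `S`.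

Geometry (Edixhoven / Katz–Mazur; S36lib's `ThickDatum` = the three Gauss valuations `V₁, V₂, V₃` of
`F(X₀(M q²))` over the inertia field, multiplicities `1, q-1, 1`): the class is `[E]`, `p E = div u` with `u`
inertia-fixed (`hasStableReps`); its invariants are (a) the orders `V_i(u) mod p` — Hecke equivariant with
`T_ℓ = ℓ + 1`, hence zero (component group is Eisenstein); (b) the classes of the reductions `ū_i` in
`Pic⁰(X₀(M)_{𝔽̄_q})[p]` (abelian part: level `M`); (c) the periods at the supersingular triple points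
(toric part, character group `(ℤ[SS]⁰)²`: level `M q`, `q`-new); all trivial ⟹ `u = c t^p` ⟹ `x = 0`. -/
def MazurQ2Stmt : Prop :=
  ∀ (M q p : ℕ) [NeZero (M * q ^ 2)], 0 < M → q.Prime → ¬ q ∣ M → p.Prime → p ≠ 2 → p ≠ q →
    ∀ A : ValuationSubring Qb, A.LiesOverPrime q →
    ∀ (a : ℕ → ℤ) (S : ℕ → Prop), (∀ ℓ, S ℓ → ℓ.Prime ∧ ¬ ℓ ∣ M * q ^ 2 ∧ ℓ ≠ p) →
      (∃ ℓ, S ℓ ∧ ¬ (p : ℤ) ∣ a ℓ - (ℓ + 1)) →
      ∀ x ∈ tors (M * q ^ 2) (p : ℤ), x ≠ 0 → (∀ σ ∈ IA A, σ • x = x) →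
      (∀ (ℓ : ℕ) (hℓ : ℓ.Prime), S ℓ → heckeOperatorBar (M * q ^ 2) ⟨ℓ, hℓ⟩ x = (a ℓ) • x) →
      ∃ (g : CuspForm (CongruenceSubgroup.Gamma0 (M * q)) 2) (𝔪 : Ideal Zbar),
        g.IsNormalizedEigenform ∧ 𝔪.IsMaximal ∧ (p : Zbar) ∈ 𝔪 ∧ CongruentTo g 𝔪 a S

/-! ### the assembly -/

theorem not_dvd_mul_sq_iff {ℓ M q : ℕ} (hℓ : ℓ.Prime) : ¬ ℓ ∣ M * q ^ 2 ↔ ¬ ℓ ∣ M * q := by
  rw [not_iff_not, hℓ.dvd_mul, hℓ.dvd_mul]
  constructor
  · rintro (h | h)
    · exact Or.inl h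
    · exact Or.inr (hℓ.dvd_of_dvd_pow h)
  · rintro (h | h)
    · exact Or.inl h
    · exact Or.inr (dvd_pow h two_ne_zero)

/-- **Block LLsq from its four statements.** -/
theorem levelQ2Block_of_stmts (hQ1 : Q1WStmt) (hfix : InertiaFixedWStmt) (hne : NonEisWStmt)
    (hMP : MazurQ2Stmt) : LevelQ2Block := by
  intro p hp hp2 W hΔ hss hirr M q hM hq hqp hqM hres
  obtain ⟨f, 𝔪, hf, h𝔪, hp𝔪, hcong⟩ := hres
  have hN0 : M * q ^ 2 ≠ 0 := mul_ne_zero hM.ne' (pow_ne_zero 2 hq.ne_zero)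
  haveI : NeZero (M * q ^ 2) := ⟨hN0⟩
  -- the congruence in the `CongruentTo` form
  have hcong' : CongruentTo f 𝔪 W.apOfModel (IsTestPrime W (M * q ^ 2) p) := by
    intro ℓ hℓ
    exact hcong ℓ hℓ.1 hℓ.2.1 hℓ.2.2.1 hℓ.2.2.2
  obtain ⟨V, e, hV, heq, heig⟩ := hQ1 p hp hp2 W hΔ hirr (M * q ^ 2) f 𝔪 hf h𝔪 hp𝔪 hcong'
  -- a place over `q` and an inertia-fixed point
  obtain ⟨A, hA⟩ := Fermat.Agent.S13lib.exists_liesOverPrime hq
  obtain ⟨x₀, hx₀, hx₀fix⟩ := hfix p hp hp2 W hΔ hss q hq hqp A hA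
  obtain ⟨ℓ₀, hℓ₀, hℓ₀ne⟩ := hne p hp hp2 W hΔ hirr (M * q ^ 2) (Nat.pos_of_ne_zero hN0)
  -- the class
  have hx0 : ((e x₀ : V) : JZero (M * q ^ 2)) ≠ 0 := by
    intro h0
    have : e x₀ = 0 := Subtype.ext h0
    exact hx₀ (e.map_eq_zero_iff.1 this)
  have hxfix : ∀ σ ∈ IA A, σ • ((e x₀ : V) : JZero (M * q ^ 2)) = ((e x₀ : V) : JZero (M * q ^ 2)) := by
    intro σ hσ
    rw [← heq σ x₀]
    have : σ • x₀ = x₀ := Subtype.ext (hx₀fix σ hσ)
    rw [this]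
  obtain ⟨g, 𝔪', hg, h𝔪', hp𝔪', hgc⟩ := hMP M q p hM hq hqM hp hp2 hqp.symm A hA W.apOfModel
    (IsTestPrime W (M * q ^ 2) p) (fun ℓ hℓ => ⟨hℓ.1, hℓ.2.2.1, hℓ.2.2.2⟩) ⟨ℓ₀, hℓ₀, hℓ₀ne⟩
    ((e x₀ : V) : JZero (M * q ^ 2)) (hV (e x₀).2) hx0 hxfix
    (fun ℓ hℓ hS => heig ℓ hℓ hS _ (e x₀).2)
  refine ⟨g, 𝔪', hg, h𝔪', hp𝔪', fun ℓ hℓ hgood hℓN hℓp => ?_⟩
  exact hgc ℓ ⟨hℓ, hgood, (not_dvd_mul_sq_iff hℓ).2 hℓN, hℓp⟩

end Fermat.Agent.S59lib.LevelQ2
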