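/-
S59lib / LevelQ2 / NonEisW  (helper1)  — `NonEisWStmt` of `S59lib/LevelQ2/Iface.lean`: for an integral model
`W` (`Δ ≠ 0`) with `W[p]` irreducible, `p` odd, and a level `N > 0` there is a test prime `ℓ` with
`a_ℓ(W) ≢ ℓ + 1 (mod p)`   (`S41lib.NE.exists_good_prime_not_eisenstein` for `E = W_ℚ`).
-/
import Mathlib
import Fermat.Agent.S59lib.LevelQ2.Iface
import Fermat.Agent.S41lib.NE.Main

set_option autoImplicit false
set_option linter.unusedSectionVars false
set_option linter.style.haveILetI false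

noncomputable section

namespace Fermat.Agent.S59lib.LevelQ2

open WeierstrassCurve WeierstrassCurve.Affine WeierstrassCurve.Affine.Point
open Fermat.Agent.S44lib

local notation "Qb" => AlgebraicClosure ℚ

/-- `W` is an integral model of its own generic fibre -/
theorem isIntegralModelOf_self (W : WeierstrassCurve ℤ) :
    W.IsIntegralModelOf (W.map (Int.castRingHom ℚ)) :=
  ⟨1, one_smul _ _⟩

/-- **`NonEisWStmt`.** -/
theorem nonEisWStmt : NonEisWStmt := by
  intro p hp hp2 W hΔ hirr N hN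
  have hΔq : (W.map (Int.castRingHom ℚ) : WeierstrassCurve ℚ).Δ ≠ 0 := by
    rw [WeierstrassCurve.map_Δ, eq_intCast]
    exact_mod_cast hΔ
  haveI : (W.map (Int.castRingHom ℚ) : WeierstrassCurve ℚ).IsElliptic := ⟨isUnit_iff_ne_zero.2 hΔq⟩
  obtain ⟨ℓ, hℓ, hℓS, hℓp, hgood, hne⟩ :=
    Fermat.Agent.S41lib.NE.exists_good_prime_not_eisenstein (W.map (Int.castRingHom ℚ))
      (isIntegralModelOf_self W) hp hp2 hirr N.primeFactors
  refine ⟨ℓ, ⟨hℓ, hgood, fun hd => hℓS (Nat.mem_primeFactors.mpr ⟨hℓ, hd, hN.ne'⟩), hℓp⟩, ?_⟩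
  intro hdvd
  apply hne
  have e : W.apOfModel ℓ - (1 + (ℓ : ℤ)) = W.apOfModel ℓ - ((ℓ : ℤ) + 1) := by ring
  rw [e]
  exact hdvd

end Fermat.Agent.S59lib.LevelQ2
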