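/-
S59lib / LevelQ2 / Q1W  (helper1)  — `Q1WStmt` of `S59lib/LevelQ2/Iface.lean`: for an integral model `W`
(`Δ ≠ 0`), an odd prime `p` with `W[p]` irreducible, and a normalized eigenform `f` of ANY level `N`
congruent to `W` modulo a maximal ideal over `p`: the `G_ℚ`-module `W[p]` sits inside `J₀(N)[p]`,
Hecke-eigen with the eigenvalues `a_ℓ(W)`.

This is the proof of `S44lib.Q1.q1Stmt` / `S43lib.B0.q1GenStmt` (helper5, helper8) with the Frey module
replaced by `W[p]` in the coordinates `S44lib.Q1.coordE` — the Frey curve entered those proofs only through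
`exists_freyCoord`.
-/
import Mathlib
import Fermat.Agent.S59lib.LevelQ2.Iface
import Fermat.Agent.S44lib.Q1.Main

set_option autoImplicit false
set_option linter.unusedSectionVars false
set_option linter.style.haveILetI false

noncomputable section

namespace Fermat.Agent.S59lib.LevelQ2

open ModularCurve Matrix Fermat.Agent.S29lib Fermat.Agent.S44lib Fermat.Agent.S19lib
open WeierstrassCurve WeierstrassCurve.Affine WeierstrassCurve.Affine.Point
open Fermat.Agent.S44lib.Q1 Fermat.Agent.S58lib.Tate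

local notation "Qb" => AlgebraicClosure ℚ
local notation "GQ" => (AlgebraicClosure ℚ ≃ₐ[ℚ] AlgebraicClosure ℚ)
local notation "Zbar" => integralClosure ℤ ℂ

/-- **Q1 for an integral model `W`.** -/
theorem q1WStmt : Q1WStmt := by
  intro p hp hp2 W hΔ hirr N _ f 𝔪 hf h𝔪 hp𝔪 hcong
  classical
  haveI hpf : Fact p.Prime := ⟨hp⟩
  have hirr' : GaloisRepIsIrreducible (K := Qb) ℚ (WQ' W : WeierstrassCurve ℚ) p := hirr
  have hSN : ∀ ℓ, IsTestPrime W N p ℓ → ℓ.Prime ∧ ¬ ℓ ∣ N := fun ℓ h => ⟨h.1, h.2.2.1⟩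
  obtain ⟨x₀, hx₀, hx₀t, hx₀e⟩ :=
    exists_eigen_torsion hp f hf 𝔪 h𝔪 hp𝔪 W.apOfModel (IsTestPrime W N p) hSN hcong
  have hx₀W : x₀ ∈ eigenSub N p W.apOfModel (IsTestPrime W N p) := ⟨hx₀t, hx₀e⟩
  have h2 : (2 : ZMod p) ≠ 0 := by
    intro h20
    have h3 : ((2 : ℕ) : ZMod p) = 0 := by exact_mod_cast h20
    rw [ZMod.natCast_eq_zero_iff] at h3
    exact hp2 ((Nat.prime_dvd_prime_iff_eq hp Nat.prime_two).mp h3)
  obtain ⟨g, hginj, hgeq⟩ := exists_equivariant_embedding h2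
    (span_range_rhoE W hΔ p hp2 hirr') (galEigen_rel W hΔ N p)
    ⟨⟨x₀, hx₀W⟩, fun h => hx₀ (congrArg Subtype.val h)⟩
  set d : WTors W p ≃+ (Fin 2 → ZMod p) := coordE W hΔ p with hd
  have hdσ : ∀ (σ : GQ) (x : WTors W p), d (σ • x) = rhoE W hΔ p σ *ᵥ d x :=
    fun σ x => coordE_smul W hΔ p σ x
  set ι : WTors W p →+ JZero N :=
    ((eigenSub N p W.apOfModel (IsTestPrime W N p)).subtype.comp
      (g : (Fin 2 → ZMod p) →+ eigenSub N p W.apOfModel (IsTestPrime W N p))).comp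
      (d : WTors W p →+ (Fin 2 → ZMod p)) with hι
  have hιx : ∀ x, ι x =
      ((g (d x) : eigenSub N p W.apOfModel (IsTestPrime W N p)) : JZero N) := fun _ => rfl
  have hιinj : Function.Injective ι := by
    intro x y hxy
    rw [hιx, hιx] at hxy
    exact d.injective (hginj (Subtype.ext hxy))
  refine ⟨ι.range, AddMonoidHom.ofInjective hιinj, ?_, ?_, ?_⟩
  · rintro _ ⟨x, rfl⟩
    rw [hιx]
    exact (g (d x)).2.1
  · intro σ x
    show ι (σ • x) = σ • ι x
    rw [hιx, hιx, hdσ, hgeq, galEigen_coe]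
  · rintro ℓ hℓ htest _ ⟨x, rfl⟩
    rw [hιx]
    exact (g (d x)).2.2 ℓ hℓ htest

end Fermat.Agent.S59lib.LevelQ2
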