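/-
S59lib / LevelQ2 / InertiaFixed  (helper1)  — `InertiaFixedWStmt` of `S59lib/LevelQ2/Iface.lean`:
for a semistable `W/ℤ` (`Δ ≠ 0`), an odd prime `p` and a prime `q ≠ p`, the module `W[p]` has a non-zero
point fixed by the inertia group of every place over `q`
(good `q`: inertia fixes all of `W[p]`, S58lib `Red.smul_eq_self_of_redPt`;
 multiplicative `q`: S58lib `Mult.exists_fixed_of_multiplicative`).
-/
import Mathlib
import Fermat.Agent.S59lib.LevelQ2.Iface
import Fermat.Agent.S58lib.Tr.TateUnip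
import Fermat.Agent.S58lib.Assemble

set_option autoImplicit false
set_option linter.unusedSectionVars false
set_option linter.style.haveILetI false

noncomputable section

namespace Fermat.Agent.S59lib.LevelQ2

open WeierstrassCurve WeierstrassCurve.Affine WeierstrassCurve.Affine.Point
open Fermat.Agent.S19lib Fermat.Agent.S58lib

local notation "Qb" => AlgebraicClosure ℚ
local notation "GQ" => (AlgebraicClosure ℚ ≃ₐ[ℚ] AlgebraicClosure ℚ)

/-- a non-zero point of `W[p]` -/
theorem exists_ne_zero_WTors (W : WeierstrassCurve ℤ) (hΔ : W.Δ ≠ 0) {p : ℕ} (hp : p.Prime) :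
    ∃ x : WTors W p, x ≠ 0 := by
  haveI : Fact p.Prime := ⟨hp⟩
  have hΔQ : (W.map (Int.castRingHom ℚ)).Δ ≠ 0 := by
    rw [WeierstrassCurve.map_Δ, eq_intCast]
    exact_mod_cast hΔ
  have e := Tate.levelEquiv (W.map (Int.castRingHom ℚ)) p hΔQ 1
  -- a non-zero vector of `(ℤ/p)²`
  obtain ⟨y, hy⟩ := e.surjective (fun _ => (1 : ZMod (p ^ 1)))
  have hy0 : y ≠ 0 := by
    intro h0
    rw [h0, _root_.map_zero] at hy
    have h01 := congrFun hy 0
    haveI : Fact (1 < p ^ 1) := ⟨by rw [pow_one]; exact hp.one_lt⟩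
    exact zero_ne_one h01
  have hmem : ((y : Tate.Pts (W.map (Int.castRingHom ℚ)))) ∈
      Submodule.torsionBy ℤ (WPts W) ((p : ℕ) : ℤ) := by
    have := y.2
    rw [Submodule.mem_torsionBy_iff] at this ⊢
    simpa using this
  refine ⟨⟨(y : Tate.Pts (W.map (Int.castRingHom ℚ))), hmem⟩, fun h0 => hy0 ?_⟩
  apply Subtype.ext
  exact congrArg (fun z : WTors W p => (z : WPts W)) h0

/-- **`InertiaFixedWStmt`.** -/
theorem inertiaFixedWStmt : InertiaFixedWStmt := by
  intro p hp hp2 W hΔ hss q hq hqp A hA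
  classical
  have hnq : ¬ q ∣ p := fun h => hqp ((Nat.prime_dvd_prime_iff_eq hq hp).1 h)
  by_cases hbad : (q : ℤ) ∣ W.Δ
  · -- multiplicative reduction
    obtain ⟨P, hP, hPfix⟩ := multFixed W hΔ q hq hbad (hss q hq hbad) p (hp.odd_of_ne_two hp2) hnq A hA
    have hmem : P ∈ Submodule.torsionBy ℤ (WPts W) ((p : ℕ) : ℤ) := by
      rw [Submodule.mem_torsionBy_iff, natCast_zsmul, ← hP]
      exact addOrderOf_nsmul_eq_zero P
    refine ⟨⟨P, hmem⟩, fun h0 => ?_, fun σ hσ => hPfix σ hσ⟩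
    have hP0 : P = 0 := congrArg Subtype.val h0
    rw [hP0, addOrderOf_zero] at hP
    exact hp.one_lt.ne hP
  · -- good reduction
    obtain ⟨x, hx⟩ := exists_ne_zero_WTors W hΔ hp
    refine ⟨x, hx, fun σ hσ => ?_⟩
    have hx0 : p • (x : WPts W) = 0 := by
      have := x.2
      rw [Submodule.mem_torsionBy_iff, natCast_zsmul] at this
      exact this
    haveI : Fact q.Prime := ⟨hq⟩
    haveI : CharP (IsLocalRing.ResidueField A) q := Red.charP_residueField hq hA
    letI : Algebra (ZMod q) (IsLocalRing.ResidueField A) := ZMod.algebra _ q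
    obtain ⟨Pb, hPb⟩ := Red.exists_redPt_int W hq hbad hA hnq hx0
    exact Red.smul_eq_self_of_redPt (Red.redCurve_int W A)
      (Fermat.Agent.S05lib.val_natCast_eq_one_of_not_dvd hq hA hnq) hPb hx0 hσ

end Fermat.Agent.S59lib.LevelQ2
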