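/-
S59lib / LevelQ2 / Reduce  (helper1)  — block LLsq reduced to its ONE geometric statement:
`MazurQ2Stmt → LevelQ2Block`   (`Q1WStmt`, `InertiaFixedWStmt`, `NonEisWStmt` are proved).
-/
import Mathlib
import Fermat.Agent.S59lib.LevelQ2.Iface
import Fermat.Agent.S59lib.LevelQ2.InertiaFixed
import Fermat.Agent.S59lib.LevelQ2.Q1W
import Fermat.Agent.S59lib.LevelQ2.NonEisW

set_option autoImplicit false

namespace Fermat.Agent.S59lib.LevelQ2

/-- **Level lowering `q² → q` for semistable curves from Mazur's principle at `q²`.** -/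
theorem levelQ2Block_of_mazurQ2 (hMP : MazurQ2Stmt) : LevelQ2Block :=
  levelQ2Block_of_stmts q1WStmt inertiaFixedWStmt nonEisWStmt hMP

end Fermat.Agent.S59lib.LevelQ2
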