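/-
S59lib / LevelQ2 / MidAbs  (helper1)  — Project I, block LLsq: THE STATEMENT `MidDiv` AND ITS USE (abstract).

* `MidDivAt D g n` : for a Kummer function `z` (family `E : KummerFamily D g n z`) which is a unit of the middle
  component and whose OUTER reductions are non-zero constants, `n ∣ ord_Q (red₂ z)` at every place `Q` of the
  middle component  (the model is regular: `div z = n Ē` with `Ē` Cartier);
* `dvd_ord_red₂_of_midDivAt` : the same for a Kummer FIBRE UNIT `u'` whose outer reductions lie in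
  `kˣ · (κˣ)ⁿ`  (approximation: divide by `xⁿ` with `red₁ x = s₁`, `red₂ x = 1`, `red₃ x = s₃`).
-/
import Fermat.Agent.S59lib.LLsq.JSteps

set_option autoImplicit false
set_option linter.unusedSectionVars false
set_option linter.unusedVariables false

noncomputable section

namespace Fermat.Agent.S59lib.LevelQ2

open AlgebraicCurve Module
open Fermat.Agent.S18lib Fermat.Agent.S36lib.Thick Fermat.Agent.S36lib.Norm Fermat.Agent.S36lib.J
open Fermat.Agent.LSc (IsConstMulPow)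

variable {K : Type*} [Field K] {R : ValuationSubring K}
variable {F : Type*} [Field F] [Algebra K F]
variable {F₁ F₂ F₃ : Type*} [Field F₁] [Field F₂] [Field F₃]
variable [Algebra (IsLocalRing.ResidueField R) F₁] [Algebra (IsLocalRing.ResidueField R) F₂]
variable [Algebra (IsLocalRing.ResidueField R) F₃]
variable {G : Type*} [Field G] [Algebra K G]
variable {G₁ G₂ : Type*} [Field G₁] [Field G₂]
variable [Algebra (IsLocalRing.ResidueField R) G₁] [Algebra (IsLocalRing.ResidueField R) G₂]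
variable {D : ThickDatum R F F₁ F₂ F₃} {L : LowDatum R G G₁ G₂}
variable {g g₁ g₂ g₃ g₁' g₂' n q : ℕ} {KS : KummerSystem D g n} {ND : NormData D L}

/-- **the statement `MidDiv`** for a thick datum -/
def MidDivAt (D : ThickDatum R F F₁ F₂ F₃) (g n : ℕ) : Prop :=
  ∀ (z : F) (E : KummerFamily D g n z) (b₁ b₃ : IsLocalRing.ResidueField R), b₁ ≠ 0 → b₃ ≠ 0 →
    D.V₁.redF z = algebraMap (IsLocalRing.ResidueField R) F₁ b₁ →
    D.V₃.redF z = algebraMap (IsLocalRing.ResidueField R) F₃ b₃ →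
    D.V₂.O.valuation z = 1 →
    ∀ Q : AlgebraicCurve.Place (IsLocalRing.ResidueField R) F₂, (n : ℤ) ∣ Q.ord (D.red₂ z)

/-- **`MidDiv` for fibre units with trivial outer reductions** -/
theorem dvd_ord_red₂_of_midDivAt (X : ChainCtx D L g g₁ g₂ g₃ g₁' g₂' n q KS ND)
    (hMid : MidDivAt D g n) {u' : F} (hK : KS.IsKum u') (h₁ : D.V₁.O.valuation u' = 1)
    (h₂ : D.V₂.O.valuation u' = 1) (h₃ : D.V₃.O.valuation u' = 1)
    (r₁ : IsConstMulPow (A := R) n (D.V₁.redF u')) (r₃ : IsConstMulPow (A := R) n (D.V₃.redF u'))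
    (Q : AlgebraicCurve.Place (IsLocalRing.ResidueField R) F₂) : (n : ℤ) ∣ Q.ord (D.red₂ u') := by
  obtain ⟨c₁, s₁, hc₁, hs₁, e₁⟩ := r₁
  obtain ⟨c₃, s₃, hc₃, hs₃, e₃⟩ := r₃
  have hr₁ : (P₁ D).redF u' ≠ 0 := place_redF_ne_zero_of_valuation_eq_one (P₁ D) h₁
  have hr₂ : (P₂ D).redF u' ≠ 0 := place_redF_ne_zero_of_valuation_eq_one (P₂ D) h₂
  have hr₃ : (P₃ D).redF u' ≠ 0 := place_redF_ne_zero_of_valuation_eq_one (P₃ D) h₃
  obtain ⟨A₁, hA₁, rA₁⟩ := (P₁ D).exists_redF_eq s₁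
  obtain ⟨A₂, hA₂, rA₂⟩ := (P₂ D).exists_redF_eq (1 : F₂)
  obtain ⟨A₃, hA₃, rA₃⟩ := (P₃ D).exists_redF_eq s₃
  obtain ⟨x, hx₁, hx₂, hx₃⟩ := exists_approx₃ X.arch₁ X.arch₂ X.arch₃ X.top₁ X.top₂ X.top₃
    X.ne₁₂ X.ne₁₃ X.ne₂₃ A₁ A₂ A₃
  have rx₁ : (P₁ D).redF x = s₁ := by rw [(P₁ D).redF_eq_of_sub_lt hA₁ hx₁, rA₁]
  have rx₂ : (P₂ D).redF x = 1 := by rw [(P₂ D).redF_eq_of_sub_lt hA₂ hx₂, rA₂]
  have rx₃ : (P₃ D).redF x = s₃ := by rw [(P₃ D).redF_eq_of_sub_lt hA₃ hx₃, rA₃]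
  have nx₁ : (P₁ D).redF x ≠ 0 := by rw [rx₁]; exact hs₁
  have nx₂ : (P₂ D).redF x ≠ 0 := by rw [rx₂]; exact one_ne_zero
  have nx₃ : (P₃ D).redF x ≠ 0 := by rw [rx₃]; exact hs₃
  have hx0 : x ≠ 0 := by
    rintro rfl
    exact nx₁ (P₁ D).redF_zero
  have hy0 : x ^ n ≠ 0 := pow_ne_zero n hx0
  set z : F := u' * (x ^ n)⁻¹ with hz
  have hzK : KS.IsKum z := KS.mul _ _ hK (KS.inv _ (KS.npow x hx0))
  have hz' : z = u' ^ 1 * (x ^ n)⁻¹ := by rw [pow_one]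
  have z₁ : D.V₁.redF z = algebraMap (IsLocalRing.ResidueField R) F₁ c₁ := by
    rw [red₁_eq, hz', place_redF_pow_mul_inv_pow (P₁ D) hr₁ nx₁, rx₁, pow_one, ← red₁_eq, e₁,
      mul_inv_cancel_right₀ (pow_ne_zero _ hs₁)]
  have z₃ : D.V₃.redF z = algebraMap (IsLocalRing.ResidueField R) F₃ c₃ := by
    rw [red₃_eq, hz', place_redF_pow_mul_inv_pow (P₃ D) hr₃ nx₃, rx₃, pow_one, ← red₃_eq, e₃,
      mul_inv_cancel_right₀ (pow_ne_zero _ hs₃)]
  have z₂ : D.red₂ z = D.red₂ u' := by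
    rw [red₂_eq, hz', place_redF_pow_mul_inv_pow (P₂ D) hr₂ nx₂, rx₂, pow_one, one_pow, inv_one,
      mul_one, ← red₂_eq]
  have hzv : D.V₂.O.valuation z = 1 := by
    have hne : (P₂ D).redF z ≠ 0 := by
      rw [← red₂_eq, z₂, red₂_eq]
      exact hr₂
    exact ((P₂ D).redF_ne_zero_iff ((P₂ D).mem_of_redF_ne_zero hne)).1 hne
  have := hMid z (KS.fam z hzK) c₁ c₃ hc₁ hc₃ z₁ z₃ hzv Q
  rwa [z₂] at this

end Fermat.Agent.S59lib.LevelQ2
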