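/-
S59lib / LevelQ2 / MidRead  (helper1)  — Project I, block LLsq: THE MIDDLE READOUT (abelian part, level `M`).

`ρ ∈ FRes A M` (the reduction along the middle component `v₁₁` of a Kummer fibre unit of level `M q²`), over the
constant field `kW = ResidueField (Wfix A)`:
* `ρ ∉ kWˣ · (κˣ)ᵖ`,
* `p ∣ ord_Q ρ` at every place `Q` (the statement `MidDiv`),
* `T̄_ℓ ρ ∈ kWˣ (κˣ)ᵖ · ρ^{a'_ℓ}`, `a'_ℓ ≡ a_ℓ (mod p)`, `ℓ ∈ S`.
Then `J₀(M)[p]` contains a non-zero Hecke eigenvector with the eigenvalues `a_ℓ`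
(`S43lib.B0.Lift.exists_eigen_torsion_of_om`), hence there is an eigenform of level `M`.
-/
import Fermat.Agent.S59lib.LLsqHk.Inst
import Fermat.Agent.S43lib.B0.Lift.Old

set_option autoImplicit false
set_option linter.unusedSectionVars false
set_option linter.unusedVariables false
set_option linter.style.haveILetI false

noncomputable section

namespace Fermat.Agent.S59lib.LevelQ2

open AlgebraicCurve ModularCurve IsLocalRing
open Fermat.Agent.S18lib Fermat.Agent.LSc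
open Fermat.Agent.S36lib.Desc Fermat.Agent.S36lib.Inst
open Fermat.Agent.S44lib Fermat.Agent.S44lib.Kap Fermat.Agent.S44lib.Q4
open Fermat.Agent.S59lib.LLsqHk

local notation "Qb" => AlgebraicClosure ℚ

variable {M q : ℕ} [NeZero M] [NeZero q] [hq : Fact q.Prime]
variable {A : ValuationSubring (AlgebraicClosure ℚ)}

local notation "kW" => IsLocalRing.ResidueField (Wfix A)
local notation "kA" => IsLocalRing.ResidueField A

/-- constants of `kW` times `m`-th powers are constants of `kA` times `m`-th powers -/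
theorem isCPow_of_isConstMulPow {m : ℕ} {y : FRes A M}
    (h : IsConstMulPow (A := Wfix A) m y) : IsCPow A m y := by
  obtain ⟨c, w, -, -, rfl⟩ := h
  exact ⟨resMap A c, w, rfl⟩

/-- the converse, for non-zero functions -/
theorem isConstMulPow_of_isCPow (hA : A.LiesOverPrime q) {m : ℕ} (hm : m ≠ 0) {y : FRes A M}
    (hy : y ≠ 0) (h : IsCPow A m y) : IsConstMulPow (A := Wfix A) m y := by
  obtain ⟨a, ψ, rfl⟩ := h
  set I := constIso hq.out hA M
  refine ⟨I.inv a, ψ, ?_, ?_, ?_⟩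
  · intro h0
    apply hy
    rw [I.comp' a, h0, map_zero, zero_mul]
  · rintro rfl
    apply hy
    rw [zero_pow hm, mul_zero]
  · rw [I.comp' a]

variable [HasPrincipalDivisors (IsLocalRing.ResidueField A) (FRes A M)]

/-- **the middle readout**: a non-trivial class of functions on `X₀(M)_k`, all of whose orders are divisible by
`p`, Hecke-eigen, gives a non-zero Hecke eigenclass of `J₀(M)[p]`. -/
theorem exists_eigenclass_of_mid (hqM : ¬ q ∣ M) (hA : A.LiesOverPrime q) {p : ℕ} (hp0 : p ≠ 0)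
    (hqp : ¬ q ∣ p) (a : ℕ → ℤ) (a' : ℕ → ℕ) (S : ℕ → Prop)
    (hS : ∀ ℓ, S ℓ → ℓ.Prime ∧ ¬ ℓ ∣ M * q)
    (haa' : ∀ ℓ, S ℓ → (a' ℓ : ℤ) ≡ a ℓ [ZMOD p]) {ρ : FRes A M} (hρ0 : ρ ≠ 0)
    (hρ : ¬ IsConstMulPow (A := Wfix A) p ρ)
    (hord : ∀ Q : Place kW (FRes A M), (p : ℤ) ∣ Q.ord ρ)
    (heig : ∀ (ℓ : ℕ) [NeZero ℓ], S ℓ →
      IsConstMulPow (A := Wfix A) p (heckeFunKHom M A ℓ ρ * (ρ ^ a' ℓ)⁻¹)) :
    ∃ t : JZero M, t ≠ 0 ∧ (p : ℤ) • t = 0 ∧
      ∀ (ℓ : ℕ) (hℓ : ℓ.Prime), S ℓ → heckeOperatorBar M ⟨ℓ, hℓ⟩ t = a ℓ • t := by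
  set I := constIso hq.out hA M
  set ω : Om A (FRes A M) p := Om.mk ρ hρ0 with hω
  have hω0 : ω ≠ 0 := by
    intro h0
    exact hρ (isConstMulPow_of_isCPow hA hp0 hρ0 ((Om.mk_eq_zero_iff hρ0).1 h0))
  have hordω : ∀ Q : Place kA (FRes A M), Om.ordHom Q ω = 0 := by
    intro Q
    rw [hω, Om.ordHom_mk]
    have h1 := hord (I.place Q)
    rw [I.ord_place] at h1
    exact (ZMod.intCast_zmod_eq_zero_iff_dvd _ p).2 h1
  have hpω : (p : ℤ) • ω = 0 := by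
    rw [hω, Fermat.Agent.S43lib.B0.Lift.Om_zsmul_mk hρ0, Om.mk_eq_zero_iff, zpow_natCast]
    exact IsCPow.pow_self ρ
  have heigω : ∀ (ℓ : ℕ) [NeZero ℓ], S ℓ → Q4.heckeOm A M ℓ p ω = a ℓ • ω := by
    intro ℓ _ hSℓ
    have h1 : a ℓ • ω = (a' ℓ : ℤ) • ω := by
      obtain ⟨k, hk⟩ := (Int.modEq_iff_dvd).1 (haa' ℓ hSℓ)
      rw [hω, Fermat.Agent.S43lib.B0.Lift.Om_zsmul_mk hρ0,
        Fermat.Agent.S43lib.B0.Lift.Om_zsmul_mk hρ0, Om.mk_eq_mk_iff]
      have e : ρ ^ ((a' ℓ : ℕ) : ℤ) * (ρ ^ a ℓ)⁻¹ = (ρ ^ (-k)) ^ p := by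
        rw [← zpow_neg, ← zpow_add₀ hρ0, ← zpow_natCast (ρ ^ (-k)), ← zpow_mul]
        congr 1
        linarith
      rw [e]
      exact IsCPow.pow_self _
    rw [h1, hω, heckeOm_mk, Fermat.Agent.S43lib.B0.Lift.Om_zsmul_mk hρ0, eq_comm,
      Om.mk_eq_mk_iff, zpow_natCast]
    exact isCPow_of_isConstMulPow (heig ℓ hSℓ)
  exact Fermat.Agent.S43lib.B0.Lift.exists_eigen_torsion_of_om hqM hA p hp0 hqp ω hω0 hordω a S hS
    heigω

end Fermat.Agent.S59lib.LevelQ2
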