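/-
S59lib / LevelQ2 / ModInst  (helper1)  — Project I, block LLsq: THE MODULAR THICK DATUM AT ELLIPTIC-FREE LEVELS.

`S36lib.J.modBricks` re-issued for `q ≥ 5` and `nuTwo M = nuThree M = 0` (instead of `Fin.IsAuxLevel M q`,
i.e. `36 ∣ M`), with the FINAL DATUM EXPOSED: `∃ ϖ h0 hv, ThickCtx (J.finD ϖ h0 hv) g gM gM gM`
(so that helper3's `heckeEquiv_finD`, helper4's `modChainCtx`, `toricDecompStmt`, `midDiv` all speak about the
same datum).  The proof is `J/Close.modBricks` verbatim; `haux` was used only for the count and for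
`ord_x H₂ = 12` at the triple points, both available from `Count/*` under `(5 ≤ q, ν₂ = ν₃ = 0)`.
-/
import Fermat.Agent.S36lib.J.Close

set_option autoImplicit false
set_option linter.unusedSectionVars false
set_option linter.unusedVariables false
set_option linter.style.haveILetI false

noncomputable section

namespace Fermat.Agent.S59lib.LevelQ2

open AlgebraicCurve ModularCurve IsLocalRing CuspForm CongruenceSubgroup
open Fermat.Agent.S18lib Fermat.Agent.S28lib Fermat.Agent.ProgramR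
open Fermat.Agent.S36lib Fermat.Agent.S36lib.Thick Fermat.Agent.S36lib.Desc Fermat.Agent.S36lib.Desc2
open Fermat.Agent.S36lib.Inst Fermat.Agent.S36lib.Norm Fermat.Agent.S36lib.Mid
open Fermat.Agent.S36lib.J
open Fermat.Agent.S37lib.HeckeInst (FB)
open Fermat.Agent.LSb (HasValueAt)

local notation "Qb" => AlgebraicClosure ℚ

variable {M q : ℕ} [NeZero M] [NeZero q] [hq : Fact q.Prime] {A : ValuationSubring Qb}
  {hqM : ¬ q ∣ M} {hA : A.LiesOverPrime q}

variable [HasPrincipalDivisors (IsLocalRing.ResidueField A) (FRes A M)]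
variable [HasPrincipalDivisors (IsLocalRing.ResidueField (Wfix A)) (FRes A M)]
variable [HasPrincipalDivisors Qb (FBar M)]
variable [NeZero (M * q)]
variable [HasPrincipalDivisors Qb (FBar (M * q))]
variable [NeZero (M * q * q)]

/-- `ord_x H₂ = 12` at the triple points of an elliptic-free level, `q ≥ 5` -/
theorem ord_H₂_triplePt_of_free (h5 : 5 ≤ q) (hν2 : nuTwo M = 0) (hν3 : nuThree M = 0)
    (c : Fin (nS M q A hqM hA)) :
    (triplePt M q A hqM hA c).ord (LSb.Unit.H₂ (nodeD1 M q A hqM hA)) = 12 := by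
  rw [ord_triplePt]
  have h1 := isGaussOne_nodeD1 M q A hqM hA
  have hx := Count.modX₂_mem' (D1 := nodeD1 M q A hqM hA) c
  exact Count.ord_H₂_eq_twelve_five_le h5 hqM hA hν2 hν3 h1 hx

theorem ord_VqR_H₂_triplePt_of_free (h5 : 5 ≤ q) (hν2 : nuTwo M = 0) (hν3 : nuThree M = 0)
    (c : Fin (nS M q A hqM hA)) :
    (triplePt M q A hqM hA c).ord (LSb.Unit.VqR hA (LSb.Unit.H₂ (nodeD1 M q A hqM hA))) =
      (((q - 1 : ℕ) : ℤ) + 1) * ((12 : ℕ) : ℤ) := by
  rw [Count.VqR_H₂ hA (isGaussOne_nodeD1 M q A hqM hA), S18lib.Cech.ord_pow,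
    ord_H₂_triplePt_of_free h5 hν2 hν3 c, Nat.cast_sub hq.out.one_le]
  push_cast
  ring

/-- **THE MODULAR INSTANCE at an elliptic-free level, `q ≥ 5`** (final datum exposed). -/
theorem exists_finD_thickCtx (h5 : 5 ≤ q) (hν2 : nuTwo M = 0) (hν3 : nuThree M = 0) {g gM : ℕ}
    (hF : IsCurveOfGenus Qb (FBar (M * q * q)) g)
    (hFk : IsCurveOfGenus (IsLocalRing.ResidueField A) (FRes A M) gM) :
    ∃ (ϖ : FTop M q A) (h0 : (topD M q A hqM hA).V₂.unif ≠ 0)
      (hv : (topD M q A hqM hA).V₂.O.valuation ϖ =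
        (topD M q A hqM hA).V₂.O.valuation (topD M q A hqM hA).V₂.unif),
      ThickCtx (finD (hqM := hqM) (hA := hA) ϖ h0 hv) g gM gM gM := by
  have hcount : g + q ≤ (q + 1) * (gM + nS M q A hqM hA) :=
    Count.count_sq_mod_five_le h5 hqM hA hν2 hν3 (isGaussOne_nodeD1 M q A hqM hA) hF hFk
  have hS : Fin.CuspRingHyp (topD M q A hqM hA) := Fin.cuspRingHyp_modThick hF
  obtain ⟨τ, τ'', hτ, hτ'', hred, hτS, hτ''S, -, hτ₁⟩ := Desc2.exists_tau_triplePt M q A hqM hA
  have B := topD_thickBase_closed (hqM := hqM) (hA := hA) hF hFk hcount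
  have hXY : Fin.X0K M q (HI A) * Fin.Y0K M q (HI A) = qFix A q (M * q) ^ 12 := by
    rw [qFix_eq_natCast]
    exact Fin.X0K_mul_Y0K M q (HI A)
  have hY₁ : (gaussOneK M q A hqM hA).redF (Fin.Y0K M q (HI A) * (qFix A q (M * q) ^ 12)⁻¹) =
      (LSb.Unit.H₂ (nodeD1 M q A hqM hA))⁻¹ := by
    rw [qFix_eq_natCast]
    exact Fin.gaussOneK_redF_Y0K_div M q A hqM hA
  have hY₂ : (gaussTwoK M q A hqM hA).redF (Fin.Y0K M q (HI A)) =
      LSb.Unit.H₂ (nodeD1 M q A hqM hA) := Fin.gaussTwoK_redF_Y0K M q A hqM hA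
  have hE₁S' : (betaFix M q (HI A) (Fin.Y0K M q (HI A)))⁻¹ ∈ Fin.cuspRing hS := by
    rw [← map_inv₀]
    exact Fin.mem_cuspRing_modThick hS _
      (Eis.coe_betaFix_mem_regAway M q (HI A) (Fin.coe_Y0K_inv_mem_regAway M q (HI A)))
  have hE₃S' : (alphaFix M q (HI A) (Fin.X0K M q (HI A)))⁻¹ ∈ Fin.cuspRing hS := by
    rw [← map_inv₀]
    exact Fin.mem_cuspRing_modThick hS _
      (Eis.coe_alphaFix_mem_regAway M q (HI A) (Fin.coe_X0K_inv_mem_regAway M q (HI A)))
  obtain ⟨h0, hv, C⟩ := Reg.exists_thickCtx_modThickK (hA := hA) B hS hτ hτ'' hred hτ₁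
    (Fin.mem_cuspRing_modThick hS _ (Eis.coe_alpha_alpha_mem_regAway hτS))
    (Fin.mem_cuspRing_modThick hS _ (Eis.coe_beta_beta_mem_regAway hτS))
    (Fin.mem_cuspRing_modThick hS _ (Eis.coe_alpha_beta_mem_regAway hτ''S))
    (fun c => Fin.glueAt_modThick (WM := ofGauss (gaussMK M A hqM hA))
      (W₁ := ofGauss (gaussOneK M q A hqM hA)) (W₂ := ofGauss (gaussTwoK M q A hqM hA))
      hFk (redJ_top M q A hqM hA) hS
      (fun y => mem_gaussMK_O M A hqM hA) (fun y => gaussMK_redF M A hqM hA y)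
      (fun y => gaussOneK_redF M q A hqM hA y) (fun y => gaussTwoK_redF M q A hqM hA y)
      (rowsTop (hqM := hqM) (hA := hA)) topD_chart₁ topD_chart₂ topD_chart₃ c)
    (fun c => deg_triplePt hFk c) (m := 12) (by norm_num)
    (H := LSb.Unit.H₂ (nodeD1 M q A hqM hA)) H₂_nodeD1_ne_zero
    (fun c => ord_H₂_triplePt_of_free h5 hν2 hν3 c)
    (fun c => ord_VqR_H₂_triplePt_of_free h5 hν2 hν3 c)
    (fun c => two_le_ord_VqR_VqR_triplePt c _)
    hXY hY₁ hY₂
    (Fin.mem_cuspRing_modThick hS _ qFix_inv_mem_regAway)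
    (Fin.mem_cuspRing_modThick hS _
      (Eis.coe_betaFix_mem_regAway M q (HI A) (Fin.coe_Y0K_mem_regAway M q (HI A))))
    hE₁S'
    (Fin.mem_cuspRing_modThick hS _
      (Eis.coe_alphaFix_mem_regAway M q (HI A) (Fin.coe_X0K_mem_regAway M q (HI A))))
    hE₃S'
  exact ⟨_, h0, hv, C⟩

end Fermat.Agent.S59lib.LevelQ2
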