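/-
S59lib / LevelQ2 / Abstract  (helper1)  — Project I, block LLsq: THE FUNCTION-LEVEL DEDUCTION, abstract part.

Setting: helper4's abstract chain context `X : S36lib.J.ChainCtx D L … n q KS ND` (thick datum `D` of
level `M q²` all of whose residue fields are ONE field `κ`, Kummer system `KS`, norm data `ND`) and helper3's
record `HeckeEquiv D T d S` of a Hecke norm `T` (`d = ℓ + 1`, `S = T̄`).

* `IsEigFn K T n a u`  : the function-level eigen relation `T u ∈ Kˣ · (Fˣ)ⁿ · u^a`;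
* `orders_of_isEigFn`  : (E) `(d - a) · (w₁, w₂, w₃) ≡ ord(c) · (1, e, 1) (mod n)`; for a non-Eisenstein index
  (`d - a` prime to `n`) the orders are `≡ m · (1, e, 1)`;
* `exists_fibre_unit_of_isEigFn` : `u = u' · y`, `u'` a Kummer FIBRE UNIT, `y ∈ Kˣ (Fˣ)ⁿ` (no power `q + 1`);
* `isConstMulPow_red₂_of_isConstPow` : a total unit in `Kˣ (Fˣ)ⁿ` reduces into `kˣ (κˣ)ⁿ` on the middle component;
* `red₁_isEig`, `red₃_isEig`, `red₂_isEig` : the eigen relations of the three reductions of a fibre unit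
  (`S ρ ∈ kˣ (κˣ)ⁿ ρ^a`; on the middle component the root of unity `ζ^e = 1` of `HeckeEquiv.red₂` is a constant);
* **`exists_reduction_data`** : the summary used by the class level.
-/
import Fermat.Agent.S59lib.LLsq.JSteps
import Fermat.Agent.S59lib.LLsqHk.Inst

set_option autoImplicit false
set_option linter.unusedSectionVars false
set_option linter.unusedVariables false

noncomputable section

namespace Fermat.Agent.S59lib.LevelQ2

open AlgebraicCurve Module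
open Fermat.Agent.S18lib Fermat.Agent.S36lib.Thick Fermat.Agent.S36lib.Norm Fermat.Agent.S36lib.J
open Fermat.Agent.LSb (HasValueAt)
open Fermat.Agent.LSc (IsConstMulPow)
open Fermat.Agent.S59lib.LLsq Fermat.Agent.S59lib.LLsqHk

variable {K : Type*} [Field K] {R : ValuationSubring K}
variable {F : Type*} [Field F] [Algebra K F]
variable {κ : Type*} [Field κ] [Algebra (IsLocalRing.ResidueField R) κ]
variable {G : Type*} [Field G] [Algebra K G]
variable {G₁ G₂ : Type*} [Field G₁] [Field G₂]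
variable [Algebra (IsLocalRing.ResidueField R) G₁] [Algebra (IsLocalRing.ResidueField R) G₂]
variable {D : ThickDatum R F κ κ κ} {L : LowDatum R G G₁ G₂}
variable {g g₁ g₂ g₃ g₁' g₂' n q : ℕ} {KS : KummerSystem D g n} {ND : NormData D L}

/-- **the function-level eigen relation**: `T u = c · yⁿ · u^a` with `c ∈ Kˣ`, `y ∈ Fˣ`. -/
def IsEigFn (K : Type*) [Field K] {F : Type*} [Field F] [Algebra K F] (T : F →*₀ F) (n a : ℕ)
    (u : F) : Prop :=
  IsConstPow K n (T u * (u ^ a)⁻¹)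

section Record

variable {T : F →*₀ F} {d : ℕ} {S : κ →* κ}

/-- `T` preserves `Kˣ · (Fˣ)ⁿ` -/
theorem heckeEquiv_map_isConstPow (h : HeckeEquiv D T d S) {y : F} (hy : IsConstPow K n y) :
    IsConstPow K n (T y) :=
  IsConstPow.map (T : F →* F) (fun c => ⟨c ^ d, h.const c⟩) hy

/-- the eigen relation is insensitive to factors in `Kˣ · (Fˣ)ⁿ` -/
theorem isEigFn_mul_constPow (h : HeckeEquiv D T d S) {a : ℕ} {u y : F} (hu : IsEigFn K T n a u)
    (hy : IsConstPow K n y) : IsEigFn K T n a (u * y) := by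
  unfold IsEigFn at hu ⊢
  have e : T (u * y) * ((u * y) ^ a)⁻¹ = T u * (u ^ a)⁻¹ * (T y * (y ^ a)⁻¹) := by
    rw [map_mul, mul_pow, mul_inv]; ring
  rw [e]
  exact hu.mul ((heckeEquiv_map_isConstPow h hy).mul (hy.pow a).inv)

end Record

section Ctx

variable (X : ChainCtx D L g g₁ g₂ g₃ g₁' g₂' n q KS ND)
variable {T : F →*₀ F} {d : ℕ} {S : κ →* κ}

include X

/-- valuations of a constant along the three components -/
theorem val₁_const {c : K} (hc : c ≠ 0) : D.V₁.O.valuation (algebraMap K F c) =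
    D.V₁.O.valuation (algebraMap K F D.π) ^ (X.base.ord c) :=
  valuation_algebraMap X.base D.V₁.O D.V₁.algebraMap_mem_iff hc

theorem val₃_const {c : K} (hc : c ≠ 0) : D.V₃.O.valuation (algebraMap K F c) =
    D.V₃.O.valuation (algebraMap K F D.π) ^ (X.base.ord c) :=
  valuation_algebraMap X.base D.V₃.O D.V₃.algebraMap_mem_iff hc

theorem val₂_const {c : K} (hc : c ≠ 0) : D.V₂.O.valuation (algebraMap K F c) =
    D.V₂.O.valuation D.ϖ ^ ((D.e : ℤ) * X.base.ord c) := by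
  rw [valuation_algebraMap X.base D.V₂.O D.V₂.algebraMap_mem_iff hc, X.val₂_π,
    ← zpow_natCast (D.V₂.O.valuation D.ϖ) D.e, ← zpow_mul]

theorem val₁_π_lt : D.V₁.O.valuation (algebraMap K F D.π) < 1 :=
  valuation_algebraMap_pi_lt_one X.base D.V₁.O D.V₁.algebraMap_mem_iff

theorem val₃_π_lt : D.V₃.O.valuation (algebraMap K F D.π) < 1 :=
  valuation_algebraMap_pi_lt_one X.base D.V₃.O D.V₃.algebraMap_mem_iff

theorem val₂_ϖ_lt : D.V₂.O.valuation D.ϖ < 1 := S36lib.J.valuation_unif_lt_one D.V₂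

/-- **(E), the orders of an eigenfunction**: `(d - a) w_i ≡ ord(c) · (1, e, 1) (mod n)`. -/
theorem orders_of_isEigFn (h : HeckeEquiv D T d S) {a : ℕ} {u : F} (hu0 : u ≠ 0)
    (heig : IsEigFn K T n a u) {w₁ w₂ w₃ : ℤ}
    (hw₁ : D.V₁.O.valuation u = D.V₁.O.valuation (algebraMap K F D.π) ^ w₁)
    (hw₂ : D.V₂.O.valuation u = D.V₂.O.valuation D.ϖ ^ w₂)
    (hw₃ : D.V₃.O.valuation u = D.V₃.O.valuation (algebraMap K F D.π) ^ w₃) :
    ∃ m : ℤ, ((d : ℤ) - a) * w₁ ≡ m [ZMOD n] ∧ ((d : ℤ) - a) * w₂ ≡ (D.e : ℤ) * m [ZMOD n] ∧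
      ((d : ℤ) - a) * w₃ ≡ m [ZMOD n] := by
  have B := X.base
  have hπF := X.πF_ne_zero
  have hϖ := X.ϖ_ne_zero
  obtain ⟨c, y, hc, hy, e⟩ := heig
  obtain ⟨t₁, ht₁⟩ := gauss_exists_zpow B D.V₁ hy
  obtain ⟨t₂, ht₂⟩ := ram_exists_zpow D.V₂ hy
  obtain ⟨t₃, ht₃⟩ := gauss_exists_zpow B D.V₃ hy
  have hua : u ^ a ≠ 0 := pow_ne_zero a hu0
  have e' : T u = algebraMap K F c * y ^ n * u ^ a := by
    rw [← e, mul_assoc, inv_mul_cancel₀ hua, mul_one]
  refine ⟨B.ord c, ?_, ?_, ?_⟩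
  · have h1 := h.val₁ u w₁ hw₁
    rw [e', map_mul, map_mul, map_pow, map_pow, val₁_const X hc, ht₁, hw₁, ← zpow_natCast,
      ← zpow_natCast, ← zpow_mul, ← zpow_mul, ← zpow_add₀ ((map_ne_zero _).2 hπF),
      ← zpow_add₀ ((map_ne_zero _).2 hπF)] at h1
    have h2 := zpow_valuation_injective D.V₁.O hπF (val₁_π_lt X) h1
    refine (Int.modEq_iff_dvd).2 ⟨-t₁, ?_⟩
    linarith
  · have h1 := h.val₂ u hu0 w₂ hw₂
    rw [e', map_mul, map_mul, map_pow, map_pow, val₂_const X hc, ht₂, hw₂, ← zpow_natCast,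
      ← zpow_natCast, ← zpow_mul, ← zpow_mul, ← zpow_add₀ ((map_ne_zero _).2 hϖ),
      ← zpow_add₀ ((map_ne_zero _).2 hϖ)] at h1
    have h2 := zpow_valuation_injective D.V₂.O hϖ (val₂_ϖ_lt X) h1
    refine (Int.modEq_iff_dvd).2 ⟨-t₂, ?_⟩
    linarith
  · have h1 := h.val₃ u w₃ hw₃
    rw [e', map_mul, map_mul, map_pow, map_pow, val₃_const X hc, ht₃, hw₃, ← zpow_natCast,
      ← zpow_natCast, ← zpow_mul, ← zpow_mul, ← zpow_add₀ ((map_ne_zero _).2 hπF),
      ← zpow_add₀ ((map_ne_zero _).2 hπF)] at h1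
    have h2 := zpow_valuation_injective D.V₃.O hπF (val₃_π_lt X) h1
    refine (Int.modEq_iff_dvd).2 ⟨-t₃, ?_⟩
    linarith

/-- **(E) for a non-Eisenstein eigenfunction**: `u = u' · y` with `u'` a Kummer fibre unit and
`y ∈ Kˣ · (Fˣ)ⁿ`. -/
theorem exists_fibre_unit_of_isEigFn (h : HeckeEquiv D T d S) {a : ℕ}
    (hcop : IsCoprime ((d : ℤ) - a) (n : ℤ)) {u : F} (hu : KS.IsKum u)
    (heig : IsEigFn K T n a u) :
    ∃ u' y : F, KS.IsKum u' ∧ D.V₁.O.valuation u' = 1 ∧ D.V₂.O.valuation u' = 1 ∧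
      D.V₃.O.valuation u' = 1 ∧ IsConstPow K n y ∧ u = u' * y := by
  have hu0 : u ≠ 0 := KS.ne_zero u hu
  obtain ⟨w₁, w₂, w₃, hw₁, hw₂, hw₃⟩ := exists_orders X hu0
  obtain ⟨m, c₁, c₂, c₃⟩ := orders_of_isEigFn X h hu0 heig hw₁ hw₂ hw₃
  obtain ⟨s, t, hst⟩ := hcop
  -- `s (d - a) ≡ 1 (mod n)`
  have key : ∀ w m' : ℤ, ((d : ℤ) - a) * w ≡ m' [ZMOD n] → w ≡ s * m' [ZMOD n] := by
    intro w m' hc
    have h1 : s * (((d : ℤ) - a) * w) ≡ s * m' [ZMOD n] := Int.ModEq.mul_left s hc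
    have h2 : s * (((d : ℤ) - a) * w) = w - (n : ℤ) * (t * w) := by
      have : s * ((d : ℤ) - a) = 1 - t * n := by linarith
      rw [← mul_assoc, this]; ring
    rw [h2] at h1
    have h3 : w - (n : ℤ) * (t * w) ≡ w [ZMOD n] := by
      refine (Int.modEq_iff_dvd).2 ⟨t * w, ?_⟩
      ring
    exact h3.symm.trans h1
  refine fibre_unit_of_orders X hu hw₁ hw₂ hw₃ (m := s * m) (key w₁ m c₁) ?_ (key w₃ m c₃)
  have := key w₂ _ c₂
  rwa [mul_left_comm] at this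

/-- a total unit in `Kˣ · (Fˣ)ⁿ` is `c · yⁿ` with `c` a unit of `R` and `y` a unit of `V₂`: its reduction on
the middle component lies in `kˣ · (κˣ)ⁿ` -/
theorem isConstMulPow_red₂_of_isConstPow {y : F} (hy : IsConstPow K n y)
    (h₁ : D.V₁.O.valuation y = 1) (h₂ : D.V₂.O.valuation y = 1) :
    IsConstMulPow (A := R) n (D.red₂ y) := by
  have B := X.base
  have hn0 := X.n_ne_zero
  have hπF := X.πF_ne_zero
  obtain ⟨c, h, hc, hh, rfl⟩ := hy
  obtain ⟨m, hm⟩ := gauss_exists_zpow B D.V₁ hh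
  have hexp : B.ord c + m * (n : ℤ) = 0 := by
    rw [map_mul, map_pow, val₁_const X hc, hm, ← zpow_natCast, ← zpow_mul,
      ← zpow_add₀ ((map_ne_zero _).2 hπF)] at h₁
    exact zpow_valuation_injective D.V₁.O hπF (val₁_π_lt X) (h₁.trans (zpow_zero _).symm)
  obtain ⟨hcR, hciR⟩ := B.ord_spec hc
  set c' : K := c * D.π ^ (-(B.ord c)) with hc'
  set h' : F := h * algebraMap K F D.π ^ (-m) with hh'
  have hc'0 : c' ≠ 0 := mul_ne_zero hc (zpow_ne_zero _ B.π_ne_zero)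
  have hh'0 : h' ≠ 0 := mul_ne_zero hh (zpow_ne_zero _ hπF)
  have heq : algebraMap K F c * h ^ n = algebraMap K F c' * h' ^ n := by
    rw [hc', hh', map_mul, map_zpow₀, mul_pow, ← zpow_natCast (algebraMap K F D.π ^ (-m)) n,
      ← zpow_mul]
    have e : algebraMap K F D.π ^ (-(B.ord c)) * algebraMap K F D.π ^ (-m * (n : ℤ)) = 1 := by
      rw [← zpow_add₀ hπF]
      have : -(B.ord c) + -m * (n : ℤ) = 0 := by linarith
      rw [this, zpow_zero]
    calc algebraMap K F c * h ^ n = algebraMap K F c * h ^ n * 1 := (mul_one _).symm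
      _ = algebraMap K F c * h ^ n *
          (algebraMap K F D.π ^ (-(B.ord c)) * algebraMap K F D.π ^ (-m * (n : ℤ))) := by rw [e]
      _ = _ := by ring
  -- `c'` is a unit of `V₂`
  have hc'O : algebraMap K F c' ∈ D.V₂.O := (D.V₂.algebraMap_mem_iff c').2 hcR
  have hc'iO : (algebraMap K F c')⁻¹ ∈ D.V₂.O := by
    rw [← map_inv₀]
    exact (D.V₂.algebraMap_mem_iff _).2 hciR
  have hc'v : D.V₂.O.valuation (algebraMap K F c') = 1 :=
    valuation_eq_one_of_mem_of_inv_mem D.V₂.O ((map_ne_zero _).2 hc'0) hc'O hc'iO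
  have hh'v : D.V₂.O.valuation h' = 1 := by
    rw [heq, map_mul, hc'v, one_mul, map_pow] at h₂
    exact eq_one_of_pow_eq_one₀ hn0 h₂
  obtain ⟨hh'O, -⟩ := mem_and_inv_mem_of_valuation_eq_one D.V₂.O hh'v
  have hh'r : (P₂ D).redF h' ≠ 0 := place_redF_ne_zero_of_valuation_eq_one (P₂ D) hh'v
  have hc'r : (P₂ D).redF (algebraMap K F c') ≠ 0 :=
    place_redF_ne_zero_of_valuation_eq_one (P₂ D) hc'v
  have hcb : (P₂ D).redF (algebraMap K F c') =
      algebraMap (IsLocalRing.ResidueField R) κ (IsLocalRing.residue R ⟨c', hcR⟩) := by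
    rw [(P₂ D).redF_of_mem (show algebraMap K F c' ∈ (P₂ D).O from hc'O)]
    exact D.V₂.red_algebraMap ⟨c', hcR⟩ hc'O
  refine ⟨IsLocalRing.residue R ⟨c', hcR⟩, (P₂ D).redF h', ?_, hh'r, ?_⟩
  · intro h0
    rw [h0, map_zero] at hcb
    exact hc'r hcb
  · rw [red₂_eq, heq, (P₂ D).redF_mul (show algebraMap K F c' ∈ (P₂ D).O from hc'O)
      ((P₂ D).O.pow_mem (show h' ∈ (P₂ D).O from hh'O) n), hcb,
      (P₂ D).redF_pow (show h' ∈ (P₂ D).O from hh'O)]

/-- the eigen relation of the reduction on the first component -/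
theorem red₁_isEig (h : HeckeEquiv D T d S) {a : ℕ} {u' : F} (h₁ : D.V₁.O.valuation u' = 1)
    (heig : IsEigFn K T n a u') :
    IsConstMulPow (A := R) n (S (D.V₁.redF u') * (D.V₁.redF u' ^ a)⁻¹) := by
  have B := X.base
  have hr : (P₁ D).redF u' ≠ 0 := place_redF_ne_zero_of_valuation_eq_one (P₁ D) h₁
  have hT₁ : D.V₁.O.valuation (T u') = 1 := by
    have := h.val₁ u' 0 (by rw [h₁, zpow_zero])
    rwa [mul_zero, zpow_zero] at this
  have hTr : (P₁ D).redF (T u') ≠ 0 := place_redF_ne_zero_of_valuation_eq_one (P₁ D) hT₁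
  have e : D.V₁.redF (T u' * (u' ^ a)⁻¹) = S (D.V₁.redF u') * (D.V₁.redF u' ^ a)⁻¹ := by
    have := place_redF_pow_mul_inv_pow (P₁ D) hTr hr 1 a
    rw [pow_one, pow_one] at this
    rw [red₁_eq, this, ← red₁_eq, ← red₁_eq, h.red₁ u' hr]
  rw [← e]
  refine isConstMulPow_redF_of_isConstPow B D.V₁ heig ?_
  rw [e]
  exact mul_ne_zero (monoidHom_ne_zero S hr) (inv_ne_zero (pow_ne_zero a hr))

/-- the eigen relation of the reduction on the third component -/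
theorem red₃_isEig (h : HeckeEquiv D T d S) {a : ℕ} {u' : F} (h₃ : D.V₃.O.valuation u' = 1)
    (heig : IsEigFn K T n a u') :
    IsConstMulPow (A := R) n (S (D.V₃.redF u') * (D.V₃.redF u' ^ a)⁻¹) := by
  have B := X.base
  have hr : (P₃ D).redF u' ≠ 0 := place_redF_ne_zero_of_valuation_eq_one (P₃ D) h₃
  have hT₃ : D.V₃.O.valuation (T u') = 1 := by
    have := h.val₃ u' 0 (by rw [h₃, zpow_zero])
    rwa [mul_zero, zpow_zero] at this
  have hTr : (P₃ D).redF (T u') ≠ 0 := place_redF_ne_zero_of_valuation_eq_one (P₃ D) hT₃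
  have e : D.V₃.redF (T u' * (u' ^ a)⁻¹) = S (D.V₃.redF u') * (D.V₃.redF u' ^ a)⁻¹ := by
    have := place_redF_pow_mul_inv_pow (P₃ D) hTr hr 1 a
    rw [pow_one, pow_one] at this
    rw [red₃_eq, this, ← red₃_eq, ← red₃_eq, h.red₃ u' hr]
  rw [← e]
  refine isConstMulPow_redF_of_isConstPow B D.V₃ heig ?_
  rw [e]
  exact mul_ne_zero (monoidHom_ne_zero S hr) (inv_ne_zero (pow_ne_zero a hr))

/-- **the eigen relation of the reduction on the middle component**: the root of unity `ζ^e = 1` of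
`HeckeEquiv.red₂` is a constant. -/
theorem red₂_isEig (h : HeckeEquiv D T d S) {a : ℕ} {u' : F} (h₁ : D.V₁.O.valuation u' = 1)
    (h₂ : D.V₂.O.valuation u' = 1) (h₃ : D.V₃.O.valuation u' = 1) (heig : IsEigFn K T n a u') :
    IsConstMulPow (A := R) n (S (D.red₂ u') * (D.red₂ u' ^ a)⁻¹) := by
  have hu0 : u' ≠ 0 := by
    rintro rfl
    rw [map_zero] at h₁
    exact zero_ne_one h₁
  obtain ⟨m1, i1⟩ := mem_and_inv_mem_of_valuation_eq_one D.V₁.O h₁
  obtain ⟨m2, i2⟩ := mem_and_inv_mem_of_valuation_eq_one D.V₂.O h₂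
  obtain ⟨m3, i3⟩ := mem_and_inv_mem_of_valuation_eq_one D.V₃.O h₃
  have hO : u' ∈ D.O := ThickDatum.mem_O.2 ⟨m1, m2, m3⟩
  have hiO : u'⁻¹ ∈ D.O := ThickDatum.mem_O.2 ⟨i1, i2, i3⟩
  have hr : (P₂ D).redF u' ≠ 0 := place_redF_ne_zero_of_valuation_eq_one (P₂ D) h₂
  have hT₁ : D.V₁.O.valuation (T u') = 1 := by
    have := h.val₁ u' 0 (by rw [h₁, zpow_zero])
    rwa [mul_zero, zpow_zero] at this
  have hT₂ : D.V₂.O.valuation (T u') = 1 := by
    have := h.val₂ u' hu0 0 (by rw [h₂, zpow_zero])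
    rwa [mul_zero, zpow_zero] at this
  have hTr : (P₂ D).redF (T u') ≠ 0 := place_redF_ne_zero_of_valuation_eq_one (P₂ D) hT₂
  have hTr' : D.red₂ (T u') ≠ 0 := hTr
  have e : D.red₂ (T u' * (u' ^ a)⁻¹) = D.red₂ (T u') * (D.red₂ u' ^ a)⁻¹ := by
    have := place_redF_pow_mul_inv_pow (P₂ D) hTr hr 1 a
    rw [pow_one, pow_one] at this
    rw [red₂_eq, this]
    rfl
  have hY₁ : D.V₁.O.valuation (T u' * (u' ^ a)⁻¹) = 1 := by
    rw [map_mul, map_inv₀, map_pow, hT₁, h₁, one_pow, inv_one, mul_one]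
  have hY₂ : D.V₂.O.valuation (T u' * (u' ^ a)⁻¹) = 1 := by
    rw [map_mul, map_inv₀, map_pow, hT₂, h₂, one_pow, inv_one, mul_one]
  have key := isConstMulPow_red₂_of_isConstPow X heig hY₁ hY₂
  rw [e] at key
  -- the root of unity
  have hSr : S (D.red₂ u') ≠ 0 := monoidHom_ne_zero S hr
  have hpow := h.red₂ u' hu0 hO hiO
  have hζ : (S (D.red₂ u') * (D.red₂ (T u'))⁻¹) ^ D.e =
      algebraMap (IsLocalRing.ResidueField R) κ 1 := by
    rw [mul_pow, inv_pow, hpow, map_one, mul_inv_cancel₀ (pow_ne_zero _ hSr)]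
  obtain ⟨δ, hδ0, hδ⟩ := exists_const_of_pow_eq_const X.thick.hF₂ X.thick.e_pos.ne' one_ne_zero hζ
  have e2 : S (D.red₂ u') * (D.red₂ u' ^ a)⁻¹ =
      algebraMap (IsLocalRing.ResidueField R) κ δ * (D.red₂ (T u') * (D.red₂ u' ^ a)⁻¹) := by
    rw [← hδ, mul_assoc, ← mul_assoc (D.red₂ (T u'))⁻¹, inv_mul_cancel₀ hTr', one_mul]
  rw [e2]
  exact isConstMulPow_mul (isConstMulPow_const hδ0) key

/-- **THE REDUCTION DATA of a `q`-new Hecke eigenfunction** (function level).  `u` a Kummer function with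
trivial norms along `α`, `β`, an eigenfunction of a family of Hecke norms, one of them non-Eisenstein.  Then
`u = u' · y` with `y ∈ Kˣ (Fˣ)ⁿ` and `u'` a Kummer FIBRE UNIT with trivial norms whose outer reductions are
trivial, whose middle reduction `ρ` has `ρ^e` trivial and satisfies the eigen relations
`S_i ρ ∈ kˣ (κˣ)ⁿ ρ^{a_i}`. -/
theorem exists_reduction_data {ι : Type*} (T : ι → F →*₀ F) (d : ι → ℕ) (S : ι → κ →* κ)
    (a : ι → ℕ) (hH : ∀ i, HeckeEquiv D (T i) (d i) (S i)) {u : F} (hu : KS.IsKum u)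
    (hα : IsConstPow K n (ND.Nα u)) (hβ : IsConstPow K n (ND.Nβ u))
    (heig : ∀ i, IsEigFn K (T i) n (a i) u) (i₀ : ι)
    (hcop : IsCoprime ((d i₀ : ℤ) - a i₀) (n : ℤ)) :
    ∃ u' y : F, KS.IsKum u' ∧ IsConstPow K n y ∧ u = u' * y ∧
      D.V₁.O.valuation u' = 1 ∧ D.V₂.O.valuation u' = 1 ∧ D.V₃.O.valuation u' = 1 ∧
      IsConstPow K n (ND.Nα u') ∧ IsConstPow K n (ND.Nβ u') ∧
      IsConstMulPow (A := R) n (D.V₁.redF u') ∧ IsConstMulPow (A := R) n (D.V₃.redF u') ∧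
      IsConstMulPow (A := R) n (D.red₂ u' ^ D.e) ∧
      ∀ i, IsConstMulPow (A := R) n (S i (D.red₂ u') * (D.red₂ u' ^ a i)⁻¹) := by
  obtain ⟨u', y, hu'K, v₁, v₂, v₃, hyP, huy⟩ :=
    exists_fibre_unit_of_isEigFn X (hH i₀) hcop hu (heig i₀)
  have hy0 : y ≠ 0 := hyP.ne_zero
  have hu' : u' = u * y⁻¹ := by rw [huy, mul_assoc, mul_inv_cancel₀ hy0, mul_one]
  have hNα : IsConstPow K n (ND.Nα u') := by
    rw [hu', map_mul]
    exact hα.mul (IsConstPow.map ND.Nα X.normα.const hyP.inv)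
  have hNβ : IsConstPow K n (ND.Nβ u') := by
    rw [hu', map_mul]
    exact hβ.mul (IsConstPow.map ND.Nβ X.normβ.const hyP.inv)
  obtain ⟨r₁, r₂, r₃⟩ := X.red_isConstMulPow v₁ v₂ v₃ hNα hNβ
  have heig' : ∀ i, IsEigFn K (T i) n (a i) u' := by
    intro i
    rw [hu']
    exact isEigFn_mul_constPow (hH i) (heig i) hyP.inv
  exact ⟨u', y, hu'K, hyP, huy, v₁, v₂, v₃, hNα, hNβ, r₁, r₃, r₂,
    fun i => red₂_isEig X (hH i) v₁ v₂ v₃ (heig' i)⟩

/-- **the toric branch**: if moreover the middle reduction is trivial, `u' = z · xⁿ` with `z` a Kummer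
TRI-UNIT with constant reductions and trivial norms. -/
theorem exists_triUnit_of_red₂ {u' : F} (hK : KS.IsKum u') (h₁ : D.V₁.O.valuation u' = 1)
    (h₂ : D.V₂.O.valuation u' = 1) (h₃ : D.V₃.O.valuation u' = 1)
    (hα : IsConstPow K n (ND.Nα u')) (hβ : IsConstPow K n (ND.Nβ u'))
    (r₁ : IsConstMulPow (A := R) n (D.V₁.redF u')) (r₂ : IsConstMulPow (A := R) n (D.red₂ u'))
    (r₃ : IsConstMulPow (A := R) n (D.V₃.redF u')) :
    ∃ (z x : F) (b₁ b₂ b₃ : IsLocalRing.ResidueField R), KS.IsKum z ∧ IsTriUnit D z b₁ b₂ b₃ ∧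
      IsConstPow K n (ND.Nα z) ∧ IsConstPow K n (ND.Nβ z) ∧ x ≠ 0 ∧ u' = z * x ^ n := by
  obtain ⟨z, x, b₁, b₂, b₃, hzK, hz, hx0, huz⟩ := triUnit_of_reductions X hK h₁ h₂ h₃ r₁ r₂ r₃
  have hxn : IsConstPow K n (x ^ n) := isConstPow_npow hx0
  have hz' : z = u' * (x ^ n)⁻¹ := by
    rw [huz, mul_assoc, mul_inv_cancel₀ (pow_ne_zero n hx0), mul_one]
  refine ⟨z, x, b₁, b₂, b₃, hzK, hz, ?_, ?_, hx0, huz⟩
  · rw [hz', map_mul]
    exact hα.mul (IsConstPow.map ND.Nα X.normα.const hxn.inv)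
  · rw [hz', map_mul]
    exact hβ.mul (IsConstPow.map ND.Nβ X.normβ.const hxn.inv)

end Ctx

end Fermat.Agent.S59lib.LevelQ2
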