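/-
S59lib / LevelQ2 / ClassFun  (helper1)  — Project I, block LLsq: THE CLASS ↔ FUNCTION DICTIONARY.

`H ≤ G_ℚ` a subgroup, `K = fixK H`, `fixF N H ⊆ FB N` the `H`-fixed functions of level `N`.

* `isConstPow_of_kummer_principal` : **descent of triviality**: an `H`-fixed function `v` with `div v = n E'`,
  `E'` principal (over `ℚ̄`), lies in `Kˣ · (fixF N H ˣ)ⁿ`  (class descent `HasFixedGenerators`);
* `isEigFn_of_eigen` : **the eigen relation at function level**: `x = [E]`, `n E = div u`, `u` `H`-fixed,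
  `T_ℓ x = a x`, `a' ≡ a (mod n)`  ⟹  `IsEigFn K (heckeFix N ℓ H) n a' u`;
* `eq_of_kummer_factor` : the converse dictionary: a Kummer function of `x` of the shape
  `c · yⁿ · f₁ · f₂` with `f_i` Kummer functions of classes `t_i` gives `x = t₁ + t₂`.
-/
import Fermat.Agent.S59lib.LevelQ2.Abstract
import Fermat.Agent.S36lib.Fin.ClassLevel
import Fermat.Agent.S36lib.J.ClassDescentBar
import Fermat.Agent.S35lib.New.PushHeckeJ

set_option autoImplicit false
set_option linter.unusedSectionVars false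
set_option linter.unusedVariables false

noncomputable section

namespace Fermat.Agent.S59lib.LevelQ2

open AlgebraicCurve ModularCurve AlgebraicCurve.SemilinearAut
open Fermat.Agent.S29lib Fermat.Agent.S29lib.GH Fermat.Agent.S29lib.D Fermat.Agent.S35lib
open Fermat.Agent.S37lib.HeckeInst
open Fermat.Agent.S36lib.Desc2 Fermat.Agent.S36lib.J Fermat.Agent.S36lib.Thick
open Fermat.Agent.S36lib.Fin
open Fermat.Agent.S59lib.LLsqHk

local notation "Qb" => AlgebraicClosure ℚ
local notation "GQ" => (AlgebraicClosure ℚ ≃ₐ[ℚ] AlgebraicClosure ℚ)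

variable {N : ℕ} [NeZero N] {H : Subgroup GQ}

/-- a divisor `E'` with `n E' = div v`, `v` an `H`-fixed function, is `H`-stable -/
theorem isStableDiv_of_kummer {n : ℕ} (hn : n ≠ 0) {v : FB N} (hv : v ∈ fixF N H)
    {E' : Divisor Qb (FB N)} (hdiv : ∀ w : Place Qb (FB N), (n : ℤ) * E' w = w.ord v) :
    IsStableDiv N H E' := by
  intro σ hσ
  have hnZ : (n : ℤ) ≠ 0 := by exact_mod_cast hn
  ext w
  rw [SemilinearAut.divisor_smul_apply]
  apply mul_left_cancel₀ hnZ
  rw [hdiv, hdiv]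
  have h1 := SemilinearAut.ord_smul (galAutBar N σ) ((galAutBar N σ)⁻¹ • w) v
  rw [smul_inv_smul, mem_fixF.1 hv σ hσ] at h1
  exact h1.symm

/-- **descent of triviality**: an `H`-fixed function whose divisor is `n` times a principal divisor lies in
`Kˣ · (fixF N H ˣ)ⁿ`. -/
theorem isConstPow_of_kummer_principal (hGen : HasFixedGenerators N H) {n : ℕ} (hn : n ≠ 0)
    (v : fixF N H) (hv0 : v ≠ 0) {E' : Divisor Qb (FB N)}
    (hdiv : ∀ w : Place Qb (FB N), (n : ℤ) * E' w = w.ord (v : FB N)) (hprin : E'.IsPrincipal) :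
    IsConstPow (fixK H) n v := by
  have hst : IsStableDiv N H E' := isStableDiv_of_kummer hn v.2 hdiv
  obtain ⟨h, hhfix, hh0, hhdiv⟩ := hGen _ hst hprin
  have hv0' : (v : FB N) ≠ 0 := fun h0 => hv0 (Subtype.ext h0)
  have hhn0 : (h ^ n)⁻¹ ≠ 0 := inv_ne_zero (pow_ne_zero n hh0)
  have hyord : ∀ w : Place Qb (FB N), w.ord ((v : FB N) * (h ^ n)⁻¹) = 0 := by
    intro w
    rw [w.ord_mul hv0' hhn0, w.ord_inv, S18lib.Cech.ord_pow, ← hdiv w, hhdiv w]
    ring
  obtain ⟨c, hc0, hc⟩ := exists_const_FB N (mul_ne_zero hv0' hhn0) hyord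
  have hyfix : (v : FB N) * (h ^ n)⁻¹ ∈ fixF N H :=
    (fixF N H).mul_mem v.2 ((fixF N H).inv_mem ((fixF N H).pow_mem hhfix n))
  rw [hc] at hyfix
  obtain ⟨c', hc'⟩ := exists_fixK_of_mem_fixF hyfix
  refine ⟨c', ⟨h, hhfix⟩, ?_, ?_, ?_⟩
  · rintro rfl
    rw [map_zero] at hc'
    exact hc0 hc'.symm
  · intro h0
    exact hh0 (congrArg Subtype.val h0)
  · apply Subtype.ext
    show (v : FB N) = algebraMap Qb (FB N) (algebraMap (fixK H) Qb c') * h ^ n
    rw [hc', ← hc, mul_assoc, inv_mul_cancel₀ (pow_ne_zero n hh0), mul_one]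

/-- `a • x` has the Kummer function `u ^ a` -/
theorem kummerRel_nsmul {n : ℕ} {x : JZero N} {u : FB N} (h : KummerRel n x u) (a : ℕ) :
    KummerRel n (a • x) (u ^ a) := by
  induction a with
  | zero =>
    rw [zero_nsmul, pow_zero]
    exact kummerRel_zero_one n
  | succ a ih =>
    rw [succ_nsmul, pow_succ]
    exact ih.mul h

/-- two Kummer functions of the same class: the divisor of the quotient is `n` times a principal divisor -/
theorem exists_principal_of_kummerRel {n : ℕ} {x : JZero N} {f g : FB N}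
    (h : KummerRel n x f) (h' : KummerRel n x g) :
    ∃ E' : Divisor Qb (FB N), E'.IsPrincipal ∧
      ∀ w : Place Qb (FB N), (n : ℤ) * E' w = w.ord (g * f⁻¹) := by
  obtain ⟨hf, D, rfl, hD⟩ := h
  obtain ⟨hg, E, hED, hE⟩ := h'
  have h1 : Pic0.mk (E - D) = 0 := by
    have : Pic0.mk (E - D) = Pic0.mk E - Pic0.mk D := rfl
    rw [this, hED, sub_self]
  have h2 := (QuotientAddGroup.eq_zero_iff _).1 h1
  rw [AddSubgroup.mem_addSubgroupOf] at h2
  refine ⟨((E - D : Divisor.degZero (K := Qb) (F := FB N)) : Divisor Qb (FB N)),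
    Divisor.mem_principal.1 h2, fun w => ?_⟩
  rw [w.ord_mul hg (inv_ne_zero hf), w.ord_inv, ← hD w, ← hE w]
  simp only [AddSubgroupClass.coe_sub, Finsupp.sub_apply]
  ring

/-- **the eigen relation at function level.** -/
theorem isEigFn_of_eigen (hGen : HasFixedGenerators N H) {n : ℕ} (hn : n ≠ 0) {ℓ : ℕ} [NeZero ℓ]
    (hℓ : ℓ.Prime) {x : JZero N} {u : fixF N H} (hrel : KummerRel n x (u : FB N)) {a : ℤ}
    {a' : ℕ} (haa' : (a' : ℤ) ≡ a [ZMOD n])
    (heig : heckeOperatorBar N ⟨ℓ, hℓ⟩ x = a • x) :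
    IsEigFn (fixK H) (heckeFix N ℓ H) n a' u := by
  have hnx : (n : ℤ) • x = 0 := hrel.torsion
  have hax : a • x = a' • x := by
    obtain ⟨k, hk⟩ := (Int.modEq_iff_dvd).1 haa'
    have : a = (a' : ℤ) + k * (n : ℤ) := by linarith
    rw [this, add_zsmul, mul_zsmul, hnx, smul_zero, add_zero, natCast_zsmul]
  have h1 : KummerRel n (a' • x) (D.normStd N ℓ (u : FB N)) := by
    have := kummerRel_heckeStd N ℓ hrel
    rw [← hax, ← heig, Fermat.Agent.S29lib.H.heckeOperatorBar_eq_heckeStd]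
    exact this
  have h2 : KummerRel n (a' • x) ((u : FB N) ^ a') := kummerRel_nsmul hrel a'
  obtain ⟨E', hprin, hdiv⟩ := exists_principal_of_kummerRel h2 h1
  have hu0 : u ≠ 0 := fun h0 => hrel.ne_zero (by rw [h0]; rfl)
  have hv0 : heckeFix N ℓ H u * (u ^ a')⁻¹ ≠ 0 :=
    mul_ne_zero (heckeFix_ne_zero N ℓ H hu0) (inv_ne_zero (pow_ne_zero a' hu0))
  exact isConstPow_of_kummer_principal hGen hn _ hv0 hdiv hprin

end Fermat.Agent.S59lib.LevelQ2
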