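/-
S59lib / LevelQ2 / QNew  (helper1)  — Project I, block LLsq: FROM THE CLASS TO THE FUNCTION-LEVEL REDUCTION DATA.

The first half of `S36lib.Fin.smul_eq_zero_of_chainCtx` (class ↦ `H`-fixed Kummer function with trivial norms)
followed by `exists_reduction_data` (Hecke equivariance + one non-Eisenstein index): a `q`-new, `H`-fixed Hecke
eigenclass `x ∈ J₀(N q)[n]` has a Kummer function `u = u' · y`, `y ∈ Kˣ (Fˣ)ⁿ`, `u'` a Kummer fibre unit with
trivial norms, trivial outer reductions, `(red₂ u')^e` trivial and `S_ℓ (red₂ u') ≡ (red₂ u')^{a_ℓ}`.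
-/
import Fermat.Agent.S59lib.LevelQ2.ClassFun

set_option autoImplicit false
set_option linter.unusedSectionVars false
set_option linter.unusedVariables false
set_option linter.style.haveILetI false

noncomputable section

namespace Fermat.Agent.S59lib.LevelQ2

open AlgebraicCurve ModularCurve AlgebraicCurve.SemilinearAut
open Fermat.Agent.S29lib Fermat.Agent.S29lib.GH Fermat.Agent.S29lib.D Fermat.Agent.S35lib
open Fermat.Agent.S37lib.HeckeInst
open Fermat.Agent.S36lib.Desc2 Fermat.Agent.S36lib.J Fermat.Agent.S36lib.Thick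
open Fermat.Agent.S36lib.Fin
open Fermat.Agent.LSc (IsConstMulPow)
open Fermat.Agent.S59lib.LLsqHk

local notation "Qb" => AlgebraicClosure ℚ
local notation "GQ" => (AlgebraicClosure ℚ ≃ₐ[ℚ] AlgebraicClosure ℚ)

variable {N q : ℕ} [NeZero N] [NeZero q] {H : Subgroup GQ} {R : ValuationSubring (fixK H)}
variable {κ G₁ G₂ : Type*} [Field κ] [Field G₁] [Field G₂]
variable [Algebra (IsLocalRing.ResidueField R) κ]
variable [Algebra (IsLocalRing.ResidueField R) G₁] [Algebra (IsLocalRing.ResidueField R) G₂]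
variable {D : ThickDatum R (fixF (N * q) H) κ κ κ} {L : LowDatum R (fixF N H) G₁ G₂}
variable {g g₁ g₂ g₃ g₁' g₂' n : ℕ} {KS : KummerSystem D g n} {ND : NormData D L}

/-- **the reduction data of a `q`-new, `H`-fixed Hecke eigenclass.** -/
theorem exists_reduction_data_of_qnew (X : ChainCtx D L g g₁ g₂ g₃ g₁' g₂' n q KS ND)
    (hKum : ∀ u : fixF (N * q) H, u ≠ 0 →
      (∃ E : Divisor Qb (FB (N * q)), ∀ v : Place Qb (FB (N * q)),
        (n : ℤ) * E v = v.ord (u : FB (N * q))) → KS.IsKum u)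
    (hNα : ∀ u : fixF (N * q) H,
      ((ND.Nα u : fixF N H) : FB N) = normAlong (heckeAlphaBar Qb N q) (u : FB (N * q)))
    (hNβ : ∀ u : fixF (N * q) H,
      ((ND.Nβ u : fixF N H) : FB N) = normAlong (heckeBetaBar Qb N q) (u : FB (N * q)))
    (hRep : HasStableReps (N * q) H) (hGen₂ : HasFixedGenerators (N * q) H)
    (hGen₁ : HasFixedGenerators N H)
    {ι : Type*} (ℓ : ι → ℕ) [∀ i, NeZero (ℓ i)] (hℓ : ∀ i, (ℓ i).Prime) (S : ι → κ →* κ)
    (hH : ∀ i, HeckeEquiv D (heckeFix (N * q) (ℓ i) H) (ℓ i + 1) (S i))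
    (a : ι → ℤ) (a' : ι → ℕ) (haa' : ∀ i, (a' i : ℤ) ≡ a i [ZMOD n])
    {x : JZero (N * q)} (hx : x ∈ Tors (N * q) n) (hnew : IsQNew N q x)
    (hfix : ∀ σ ∈ H, σ • x = x)
    (heig : ∀ i, heckeOperatorBar (N * q) ⟨ℓ i, hℓ i⟩ x = a i • x)
    (i₀ : ι) (hcop : IsCoprime (((ℓ i₀ + 1 : ℕ) : ℤ) - a' i₀) (n : ℤ)) :
    ∃ u u' y : fixF (N * q) H, KummerRel n x (u : FB (N * q)) ∧ KS.IsKum u' ∧
      IsConstPow (fixK H) n y ∧ u = u' * y ∧
      D.V₁.O.valuation u' = 1 ∧ D.V₂.O.valuation u' = 1 ∧ D.V₃.O.valuation u' = 1 ∧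
      IsConstPow (fixK H) n (ND.Nα u') ∧ IsConstPow (fixK H) n (ND.Nβ u') ∧
      IsConstMulPow (A := R) n (D.V₁.redF u') ∧ IsConstMulPow (A := R) n (D.V₃.redF u') ∧
      IsConstMulPow (A := R) n (D.red₂ u' ^ D.e) ∧
      ∀ i, IsConstMulPow (A := R) n (S i (D.red₂ u') * (D.red₂ u' ^ a' i)⁻¹) := by
  have hn0 : n ≠ 0 := X.n_ne_zero
  have hnZ : (n : ℤ) ≠ 0 := by exact_mod_cast hn0
  obtain ⟨E, rfl, hE⟩ := hRep x hfix
  -- `n E` is principal
  have hprinc : (n • (E : Divisor Qb (FB (N * q)))).IsPrincipal := by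
    have h0 : (n : ℤ) • Pic0.mk E = 0 := (Submodule.mem_torsionBy_iff _ _).1 hx
    have h1 : Pic0.mk (n • E) = 0 := by
      rw [← h0, natCast_zsmul]
      rfl
    have h2 := (QuotientAddGroup.eq_zero_iff _).1 h1
    rw [AddSubgroup.mem_addSubgroupOf] at h2
    exact Divisor.mem_principal.1 (by simpa using h2)
  obtain ⟨u, hufix, hu0, hudiv⟩ := hGen₂ _ (hE.nsmul n) hprinc
  have hudiv' : ∀ v : Place Qb (FB (N * q)),
      (n : ℤ) * (E : Divisor Qb (FB (N * q))) v = v.ord u := by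
    intro v
    rw [← hudiv v, Finsupp.smul_apply, nsmul_eq_mul]
  set uF : fixF (N * q) H := ⟨u, hufix⟩ with huF
  have huF0 : uF ≠ 0 := fun h0 => hu0 (congrArg Subtype.val h0)
  have huK : KS.IsKum uF := hKum uF huF0 ⟨E, hudiv'⟩
  have hrel : KummerRel n (Pic0.mk E) ((uF : fixF (N * q) H) : FB (N * q)) :=
    ⟨hu0, E, rfl, hudiv'⟩
  -- the two norms
  have hα : IsConstPow (fixK H) n (ND.Nα uF) := by
    refine isConstPow_of_pushforward (heckeAlphaBar Qb N q) (heckeAlphaBarIntegral N q)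
      (finiteAlong_alpha N q) (normFormulaAlong_alpha N q)
      (fun σ _ => intertwines_alpha N q σ) hGen₁ hE ?_ hu0 hudiv' _ (hNα uF)
    have := hasPrincipalDivisors_FB (N * q)
    exact LSc.isPrincipal_pushforwardAlong_of_eq_zero _ _ _ _ E hnew.1
  have hβ : IsConstPow (fixK H) n (ND.Nβ uF) := by
    refine isConstPow_of_pushforward (heckeBetaBar Qb N q) (heckeBetaBarIntegral N q)
      (finiteAlong_beta N q) (normFormulaAlong_beta N q)
      (fun σ _ => intertwines_beta N q σ) hGen₁ hE ?_ hu0 hudiv' _ (hNβ uF)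
    have := hasPrincipalDivisors_FB (N * q)
    exact LSc.isPrincipal_pushforwardAlong_of_eq_zero _ _ _ _ E hnew.2
  -- the eigen relations
  have heigF : ∀ i, IsEigFn (fixK H) (heckeFix (N * q) (ℓ i) H) n (a' i) uF :=
    fun i => isEigFn_of_eigen hGen₂ hn0 (hℓ i) hrel (haa' i) (heig i)
  obtain ⟨u', y, hu'K, hyP, huy, v₁, v₂, v₃, hNα', hNβ', r₁, r₃, r₂, re⟩ :=
    exists_reduction_data X (fun i => heckeFix (N * q) (ℓ i) H) (fun i => ℓ i + 1) S a' hH huK hα hβ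
      heigF i₀ hcop
  exact ⟨uF, u', y, hrel, hu'K, hyP, huy, v₁, v₂, v₃, hNα', hNβ', r₁, r₃, r₂, re⟩

end Fermat.Agent.S59lib.LevelQ2
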