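/-
S59lib / LevelQ2 / PullJ  (helper1)  — Project I, block LLsq: THE TWO PULL-BACKS `α^*, β^* : J₀(N) → J₀(N q)`
AND THE HECKE OPERATORS.

* `pullA N q`, `pullB N q` : the pull-backs along the two degeneracy maps (`LSb.Xfer.pic0PullbackAlong`);
  `kummerRel_pullA`, `kummerRel_pullB` : Kummer functions `f ↦ α f`, `f ↦ β f`;
* `normStd_alpha` : `T (α_q f) = α_q (T f)`  (`T = N_{α_ℓ} ∘ β_ℓ`, `ℓ ∤ N q`; base change of the norm,
  `LSc.Xfer.normAlong_alpha_inclL`);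
* `normStd_beta`  : `T (β_q f) = β_q (T f)` at the levels `M q → M q q` (`β_q = w_{q²} ∘ α_q ∘ w_q`);
* **`hecke_pullA`, `hecke_pullB`** : `T_ℓ ∘ α^* = α^* ∘ T_ℓ`, `T_ℓ ∘ β^* = β^* ∘ T_ℓ` on torsion classes.
-/
import Fermat.Agent.S59lib.LLsqHk.WQHecke
import Fermat.Agent.S35lib.New.PushHeckeJ
import Fermat.Agent.S44lib.Kap.PushPull
import Fermat.Agent.LSc.Xfer.Level

set_option autoImplicit false
set_option linter.unusedSectionVars false
set_option linter.unusedVariables false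
set_option linter.style.haveILetI false

noncomputable section

namespace Fermat.Agent.S59lib.LevelQ2

open AlgebraicCurve ModularCurve
open Fermat.Agent.S18lib Fermat.Agent.S29lib Fermat.Agent.S29lib.D Fermat.Agent.S35lib.New
open Fermat.Agent.S37lib.HeckeInst Fermat.Agent.LSb.Val Fermat.Agent.S36lib.AL
open Fermat.Agent.S59lib.LLsqHk

local notation "Qb" => AlgebraicClosure ℚ

section Pull

variable (N q : ℕ) [NeZero N] [NeZero q]

/-- the pull-back `α^* : J₀(N) → J₀(N q)` -/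
def pullA : JZero N →+ JZero (N * q) :=
  haveI := hasPrincipalDivisors_FB (N * q)
  Fermat.Agent.LSb.Xfer.pic0PullbackAlong (heckeAlphaBar Qb N q) (heckeAlphaBarIntegral N q)
    (fundamentalIdentityAlong_alpha N q)

/-- the pull-back `β^* : J₀(N) → J₀(N q)` -/
def pullB : JZero N →+ JZero (N * q) :=
  haveI := hasPrincipalDivisors_FB (N * q)
  Fermat.Agent.LSb.Xfer.pic0PullbackAlong (heckeBetaBar Qb N q) (heckeBetaBarIntegral N q)
    (fundamentalIdentityAlong_beta N q)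

variable {N q}

theorem kummerRel_pullA {n : ℕ} {t : JZero N} {f : FBar N} (h : KummerRel n t f) :
    KummerRel n (pullA N q t) (heckeAlphaBar Qb N q f) :=
  haveI := hasPrincipalDivisors_FB (N * q)
  Fermat.Agent.S44lib.Kap.kummerRel_pullbackAlong (heckeAlphaBar Qb N q)
    (heckeAlphaBarIntegral N q) (fundamentalIdentityAlong_alpha N q) h

theorem kummerRel_pullB {n : ℕ} {t : JZero N} {f : FBar N} (h : KummerRel n t f) :
    KummerRel n (pullB N q t) (heckeBetaBar Qb N q f) :=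
  haveI := hasPrincipalDivisors_FB (N * q)
  Fermat.Agent.S44lib.Kap.kummerRel_pullbackAlong (heckeBetaBar Qb N q)
    (heckeBetaBarIntegral N q) (fundamentalIdentityAlong_beta N q) h

end Pull

/-! ### the function identities -/

section Alpha

variable {N q ℓ : ℕ} [NeZero N] [NeZero q] [NeZero ℓ]

/-- **`T (α_q f) = α_q (T f)`** -/
theorem normStd_alpha (hℓ : ℓ.Prime) (hℓN : ¬ ℓ ∣ N * q) (f : FBar N) :
    D.normStd (N * q) ℓ (heckeAlphaBar Qb N q f) = heckeAlphaBar Qb N q (D.normStd N ℓ f) := by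
  haveI : Fact ℓ.Prime := ⟨hℓ⟩
  have h : N ∣ N * q := Dvd.intro q rfl
  have e : ∀ x : FBar N, heckeAlphaBar Qb N q x = V.inclL h x :=
    fun x => (Fermat.Agent.LSc.Xfer.inclL_dvd_mul_right N q x).symm
  rw [e, e]
  unfold D.normStd
  rw [← Fermat.Agent.LSc.Xfer.inclL_beta h f]
  exact Fermat.Agent.LSc.Xfer.normAlong_alpha_inclL h hℓN _

end Alpha

section Beta

variable (M q : ℕ) [NeZero M] [NeZero q] (hq : q.Prime) (hqM : ¬ q ∣ M) {ℓ : ℕ} [NeZero ℓ]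

include hq hqM in
/-- **`T (β_q f) = β_q (T f)`** at the levels `M q → M q q` -/
theorem normStd_beta (hℓ : ℓ.Prime) (hℓN : ¬ ℓ ∣ M * q) (f : FBar (M * q)) :
    D.normStd (M * q * q) ℓ (heckeBetaBar Qb (M * q) q f) =
      heckeBetaBar Qb (M * q) q (D.normStd (M * q) ℓ f) := by
  have hqℓ : ¬ q ∣ ℓ := by
    intro h
    have : q = ℓ := (Nat.prime_dvd_prime_iff_eq hq hℓ).1 h
    subst this
    exact hℓN (Dvd.intro_left M rfl)
  have hℓN' : ¬ ℓ ∣ M * q * q := by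
    intro h
    rcases (Nat.Prime.dvd_mul hℓ).1 h with h1 | h1
    · exact hℓN h1
    · exact hℓN (h1.trans (Dvd.intro_left M rfl))
  have hβ : ∀ g : FBar (M * q), heckeBetaBar Qb (M * q) q g =
      wqq M q hq hqM (heckeAlphaBar Qb (M * q) q (wq M q hq hqM g)) := by
    intro g
    rw [← wqq_beta M q hq hqM g, wqq_wqq]
  rw [hβ f, normStd_wqq M q hq hqM ℓ hqℓ, normStd_alpha hℓ hℓN',
    wqHecke_normStd_wq M q hq hqM ℓ (wqHecke_not_dvd M q hq hqM hℓ hℓN) f, ← hβ]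

end Beta

/-! ### the Hecke operators and the pull-backs -/

section Hecke

variable {N q : ℕ} [NeZero N] [NeZero q]

/-- **`T_ℓ ∘ α^* = α^* ∘ T_ℓ`** on torsion classes, `ℓ ∤ N q` -/
theorem hecke_pullA (ℓ : Nat.Primes) (hℓ : ¬ (ℓ : ℕ) ∣ N * q) {n : ℕ} (hn : 0 < n)
    (t : JZero N) (ht : (n : ℤ) • t = 0) :
    heckeOperatorBar (N * q) ℓ (pullA N q t) = pullA N q (heckeOperatorBar N ℓ t) := by
  haveI : NeZero (ℓ : ℕ) := ⟨ℓ.2.ne_zero⟩
  have hℓN : ¬ (ℓ : ℕ) ∣ N := fun h => hℓ (Dvd.dvd.mul_right h q)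
  obtain ⟨f, hf⟩ := exists_kummerRel ht
  have h1 := kummerRel_TJ (N * q) ℓ (kummerRel_pullA (q := q) hf)
  rw [normTJ_of_not_dvd (N * q) hℓ, normStd_alpha ℓ.2 hℓ] at h1
  have h2 := kummerRel_pullA (q := q) (kummerRel_TJ N ℓ hf)
  rw [normTJ_of_not_dvd N hℓN] at h2
  have h3 := KummerRel_class_unique hn h1 h2
  rwa [H.TJ_good (N * q) ℓ hℓ, H.TJ_good N ℓ hℓN] at h3

end Hecke

section HeckeB

variable (M q : ℕ) [NeZero M] [NeZero q] (hq : q.Prime) (hqM : ¬ q ∣ M)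

include hq hqM in
/-- **`T_ℓ ∘ β^* = β^* ∘ T_ℓ`** on torsion classes of `J₀(M q)`, `ℓ ∤ M q` -/
theorem hecke_pullB (ℓ : Nat.Primes) (hℓ : ¬ (ℓ : ℕ) ∣ M * q) {n : ℕ} (hn : 0 < n)
    (t : JZero (M * q)) (ht : (n : ℤ) • t = 0) :
    heckeOperatorBar (M * q * q) ℓ (pullB (M * q) q t) =
      pullB (M * q) q (heckeOperatorBar (M * q) ℓ t) := by
  haveI : NeZero (ℓ : ℕ) := ⟨ℓ.2.ne_zero⟩
  have hℓN' : ¬ (ℓ : ℕ) ∣ M * q * q := by
    intro h
    rcases (Nat.Prime.dvd_mul ℓ.2).1 h with h1 | h1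
    · exact hℓ h1
    · exact hℓ (h1.trans (Dvd.intro_left M rfl))
  obtain ⟨f, hf⟩ := exists_kummerRel ht
  have h1 := kummerRel_TJ (M * q * q) ℓ (kummerRel_pullB (q := q) hf)
  rw [normTJ_of_not_dvd (M * q * q) hℓN', normStd_beta M q hq hqM ℓ.2 hℓ] at h1
  have h2 := kummerRel_pullB (q := q) (kummerRel_TJ (M * q) ℓ hf)
  rw [normTJ_of_not_dvd (M * q) hℓ] at h2
  have h3 := KummerRel_class_unique hn h1 h2
  rwa [H.TJ_good (M * q * q) ℓ hℓN', H.TJ_good (M * q) ℓ hℓ] at h3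

end HeckeB

end Fermat.Agent.S59lib.LevelQ2
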