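/-
S59lib / LevelQ2 / SupportLA  (helper1)  — Project I, block LLsq: THE SUPPORT LEMMA (linear algebra).

`V` finite dimensional over a field `K`, `T j` a commuting family of endomorphisms, `K₀ ⊆ V` a `T`-stable
subspace, `v₀ ∉ K₀` with `(T j - a j) v₀ ∈ K₀` for all `j` (an eigenvector of the quotient `V / K₀`).  Then
`V` itself contains a common eigenvector with the eigenvalues `a j`.
-/
import Mathlib
import Fermat.Agent.S43lib.B1.LAEigen

set_option autoImplicit false
set_option linter.unusedSectionVars false

noncomputable section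

namespace Fermat.Agent.S59lib.LevelQ2

open Fermat.Agent.S43lib.B1 MvPolynomial

variable {K V : Type*} [Field K] [AddCommGroup V] [Module K V] [FiniteDimensional K V]
variable {J : Type*} (T : J → Module.End K V)

/-- **the support lemma** -/
theorem exists_eigenvector_of_quotient (hT : ∀ i j, T i * T j = T j * T i) (K₀ : Submodule K V) (hK₀ : ∀ j, ∀ k ∈ K₀, T j k ∈ K₀)
    (a : J → K) {v₀ : V} (hv₀ : v₀ ∉ K₀) (heig : ∀ j, T j v₀ - a j • v₀ ∈ K₀) :
    ∃ v : V, v ≠ 0 ∧ ∀ j, T j v = a j • v := by
  have key : ∀ P : MvPolynomial J K, (∀ k ∈ K₀, famHom (R := K) T hT P k ∈ K₀) ∧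
      famHom (R := K) T hT P v₀ - MvPolynomial.eval a P • v₀ ∈ K₀ := by
    intro P
    induction P using MvPolynomial.induction_on with
    | C c =>
      refine ⟨fun k hk => ?_, ?_⟩
      · rw [famHom_C]
        exact K₀.smul_mem _ hk
      · rw [famHom_C, MvPolynomial.eval_C]
        have : (algebraMap K (Module.End K V) ((algebraMap K K) c)) v₀ - c • v₀ = 0 := by
          rw [Algebra.algebraMap_self, RingHom.id_apply, Module.algebraMap_end_apply, sub_self]
        rw [this]
        exact K₀.zero_mem
    | add P Q hP hQ =>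
      refine ⟨fun k hk => ?_, ?_⟩
      · rw [map_add, LinearMap.add_apply]
        exact K₀.add_mem (hP.1 k hk) (hQ.1 k hk)
      · rw [map_add, LinearMap.add_apply, map_add, add_smul]
        have : famHom (R := K) T hT P v₀ + famHom (R := K) T hT Q v₀ -
            (MvPolynomial.eval a P • v₀ + MvPolynomial.eval a Q • v₀) =
            (famHom (R := K) T hT P v₀ - MvPolynomial.eval a P • v₀) +
              (famHom (R := K) T hT Q v₀ - MvPolynomial.eval a Q • v₀) := by abel
        rw [this]
        exact K₀.add_mem hP.2 hQ.2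
    | mul_X P j hP =>
      refine ⟨fun k hk => ?_, ?_⟩
      · rw [map_mul, famHom_X, Module.End.mul_apply]
        exact hP.1 _ (hK₀ j k hk)
      · rw [map_mul, famHom_X, Module.End.mul_apply, map_mul, MvPolynomial.eval_X]
        have : famHom (R := K) T hT P (T j v₀) - (MvPolynomial.eval a P * a j) • v₀ =
            famHom (R := K) T hT P (T j v₀ - a j • v₀) +
              a j • (famHom (R := K) T hT P v₀ - MvPolynomial.eval a P • v₀) := by
          rw [map_sub, map_smul, smul_sub, smul_smul, mul_comm]
          abel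
        rw [this]
        exact K₀.add_mem (hP.1 _ (heig j)) (K₀.smul_mem _ hP.2)
  obtain ⟨v, hv, hva⟩ := exists_common_eigenvector (R := K) T hT a (fun P hP => by
    by_contra hne
    have h1 := (key P).2
    rw [hP, LinearMap.zero_apply, zero_sub] at h1
    have h2 : MvPolynomial.eval a P • v₀ ∈ K₀ := by
      have := K₀.neg_mem h1
      rwa [neg_neg] at this
    have h3 := K₀.smul_mem (MvPolynomial.eval a P)⁻¹ h2
    rw [smul_smul, inv_mul_cancel₀ hne, one_smul] at h3
    exact hv₀ h3)
  exact ⟨v, hv, fun j => by rw [hva j]; rfl⟩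

end Fermat.Agent.S59lib.LevelQ2
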