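/-
S59lib / LevelQ2 / Support  (helper1)  — Project I, block LLsq: THE SUPPORT LEMMA ON `J₀(N)[p]²`.

`Φ : J₀(N) × J₀(N) → J'` additive and Hecke equivariant (on `p`-torsion) for a family of good primes; if
`Φ (t₁, t₂) ≠ 0` is an eigenvector (eigenvalues `a i ∈ ℤ`) for `t₁, t₂ ∈ J₀(N)[p]`, then `J₀(N)[p]` contains a
non-zero eigenvector with the same eigenvalues.

The linear algebra is done on the lattice side of the Kummer comparison `κ : J₀(N)[p] ≃ (ℤ/p)^r` of `S29lib`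
(`S35lib.New.comparisonDataAt`), where the Hecke operators are the integer matrices `tMat ℓ`, which commute
(`tMat_comm`, transported from the cusp forms).
-/
import Fermat.Agent.S59lib.LevelQ2.SupportLA
import Fermat.Agent.S43lib.B0.Pkg.TorsEigen
import Fermat.Prelude.Thm_CuspForm_heckeTLin_comm

set_option autoImplicit false
set_option linter.unusedSectionVars false
set_option linter.unusedVariables false
set_option linter.style.haveILetI false

noncomputable section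

namespace Fermat.Agent.S59lib.LevelQ2

open ModularCurve CongruenceSubgroup Fermat.Agent.S29lib Fermat.Agent.Helper8

local notation "Qb" => AlgebraicClosure ℚ

variable (N : ℕ) [NeZero N]

/-- **the lattice Hecke matrices at good primes commute** -/
theorem tMat_comm (ℓ ℓ' : Nat.Primes) (hℓ : ¬ (ℓ : ℕ) ∣ N) (hℓ' : ¬ (ℓ' : ℕ) ∣ N) :
    H.tMat (D.vzBasis N) ℓ * H.tMat (D.vzBasis N) ℓ' =
      H.tMat (D.vzBasis N) ℓ' * H.tMat (D.vzBasis N) ℓ := by
  have hS2 : H.heckeS2 N ℓ = CuspForm.heckeTLin 2 ℓ.2 hℓ := H.heckeS2_of_not_dvd N (ℓ := ℓ) hℓ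
  have hS2' : H.heckeS2 N ℓ' = CuspForm.heckeTLin 2 ℓ'.2 hℓ' := H.heckeS2_of_not_dvd N (ℓ := ℓ') hℓ'
  have hcomm : Matrix.toLin' ((H.tMat (D.vzBasis N) ℓ).map (Int.cast : ℤ → ℂ)) *
        Matrix.toLin' ((H.tMat (D.vzBasis N) ℓ').map (Int.cast : ℤ → ℂ)) =
      Matrix.toLin' ((H.tMat (D.vzBasis N) ℓ').map (Int.cast : ℤ → ℂ)) *
        Matrix.toLin' ((H.tMat (D.vzBasis N) ℓ).map (Int.cast : ℤ → ℂ)) := by
    apply LinearMap.ext
    intro c
    apply (H.coordEquiv N (D.vzBasis N)).injective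
    rw [Module.End.mul_apply, Module.End.mul_apply, H.coordEquiv_tMat, H.coordEquiv_tMat,
      H.coordEquiv_tMat, H.coordEquiv_tMat, hS2, hS2']
    have hc := (CuspForm.heckeTLin_comm 2 ℓ.2 hℓ ℓ'.2 hℓ').eq
    refine Prod.ext ?_ ?_
    · exact LinearMap.congr_fun hc _
    · exact LinearMap.congr_fun hc _
  have h1 : (H.tMat (D.vzBasis N) ℓ).map (Int.castRingHom ℂ) *
      (H.tMat (D.vzBasis N) ℓ').map (Int.castRingHom ℂ) =
      (H.tMat (D.vzBasis N) ℓ').map (Int.castRingHom ℂ) *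
        (H.tMat (D.vzBasis N) ℓ).map (Int.castRingHom ℂ) := by
    apply Matrix.toLin'.injective
    rw [Matrix.toLin'_mul, Matrix.toLin'_mul]
    exact hcomm
  rw [← Matrix.map_mul, ← Matrix.map_mul] at h1
  exact Matrix.map_injective (Int.castRingHom ℂ).injective_int h1


/-- **the support lemma on `J₀(N)[p]²`**: a non-zero Hecke eigenvector in the image of an equivariant additive
map `Φ` on `J₀(N)[p]²` forces a non-zero eigenvector (same eigenvalues) in `J₀(N)[p]`. -/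
theorem exists_eigenclass_of_image {p : ℕ} (hp : p.Prime) {J' : Type*} [AddCommGroup J']
    (Φ : JZero N × JZero N →+ J') {ι : Type*} (ℓ : ι → Nat.Primes) (hℓ : ∀ i, ¬ (ℓ i : ℕ) ∣ N)
    (T' : ι → J' →+ J')
    (hΦ : ∀ i (t₁ t₂ : JZero N), p • t₁ = 0 → p • t₂ = 0 →
        T' i (Φ (t₁, t₂)) = Φ (heckeOperatorBar N (ℓ i) t₁, heckeOperatorBar N (ℓ i) t₂))
    (a : ι → ℤ) {t₁ t₂ : JZero N} (h₁ : p • t₁ = 0) (h₂ : p • t₂ = 0) (h0 : Φ (t₁, t₂) ≠ 0)
    (heig : ∀ i, T' i (Φ (t₁, t₂)) = a i • Φ (t₁, t₂)) :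
    ∃ t : JZero N, t ≠ 0 ∧ p • t = 0 ∧ ∀ i, heckeOperatorBar N (ℓ i) t = a i • t := by
  classical
  haveI : Fact (p ^ 1).Prime := ⟨by rw [pow_one]; exact hp⟩
  set C := S35lib.New.comparisonDataAt N hp with hC
  set K := ZMod (p ^ 1) with hK
  set κ := C.κ 1 with hκ
  have memT : ∀ {t : JZero N}, p • t = 0 → t ∈ Tors N (p ^ 1) := by
    intro t ht
    rw [Submodule.mem_torsionBy_iff, pow_one, natCast_zsmul]; exact ht
  have torsT : ∀ x : Tors N (p ^ 1), p • (x : JZero N) = 0 := by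
    intro x
    have h := (Submodule.mem_torsionBy_iff _ _).1 x.2
    have e : ((p ^ 1 : ℕ) : ℤ) = (p : ℤ) := by rw [pow_one]
    rw [e, natCast_zsmul] at h
    exact h
  -- the section of the comparison
  let ι₀ : (Fin C.r → K) →+ JZero N :=
    (Tors N (p ^ 1)).subtype.toAddMonoidHom.comp κ.symm.toAddMonoidHom
  have ι₀_apply : ∀ w, ι₀ w = ((κ.symm w : Tors N (p ^ 1)) : JZero N) := fun w => rfl
  have ι₀_inj : Function.Injective ι₀ := fun w w' h =>
    κ.symm.injective (Subtype.ext h)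
  have ι₀_tors : ∀ w, p • ι₀ w = 0 := fun w => torsT _
  have ι₀_κ : ∀ {t : JZero N} (ht : p • t = 0), ι₀ (κ ⟨t, memT ht⟩) = t := by
    intro t ht
    rw [ι₀_apply, AddEquiv.symm_apply_apply]
  -- the Hecke matrices modulo `p`
  let Mx : ι → Matrix (Fin C.r) (Fin C.r) K := fun i => (C.t (ℓ i)).map (Int.cast : ℤ → K)
  have hMx : ∀ i w, ι₀ ((Mx i).mulVec w) = heckeOperatorBar N (ℓ i) (ι₀ w) := by
    intro i w
    have h1 := C.κ_hecke 1 (ℓ i) (κ.symm w)
    rw [← hκ, AddEquiv.apply_symm_apply] at h1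
    rw [← C.TJ_good (ℓ i) (hℓ i), ι₀_apply, ι₀_apply, ← h1, AddEquiv.symm_apply_apply]
  have hMcomm : ∀ i j, Mx i * Mx j = Mx j * Mx i := by
    intro i j
    have h := tMat_comm N (ℓ i) (ℓ j) (hℓ i) (hℓ j)
    have h' := congrArg (fun X : Matrix (Fin (K3.rank N)) (Fin (K3.rank N)) ℤ =>
      X.map (Int.castRingHom K)) h
    simp only [Matrix.map_mul] at h'
    exact h'
  -- the map `Ψ`
  let Ψ : (Fin C.r → K) × (Fin C.r → K) →+ J' := Φ.comp (ι₀.prodMap ι₀)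
  have Ψ_apply : ∀ v, Ψ v = Φ (ι₀ v.1, ι₀ v.2) := fun v => rfl
  let T : ι → Module.End K ((Fin C.r → K) × (Fin C.r → K)) := fun i =>
    LinearMap.prodMap (Matrix.toLin' (Mx i)) (Matrix.toLin' (Mx i))
  have T_apply : ∀ i v, T i v = ((Mx i).mulVec v.1, (Mx i).mulVec v.2) := fun i v => rfl
  have ΨT : ∀ i v, Ψ (T i v) = T' i (Ψ v) := by
    intro i v
    rw [Ψ_apply, Ψ_apply, T_apply, hMx, hMx, hΦ i _ _ (ι₀_tors _) (ι₀_tors _)]
  have Ψsmul : ∀ (c : K) v, Ψ (c • v) = c.val • Ψ v := by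
    intro c v
    conv_lhs => rw [← ZMod.natCast_zmod_val c, Nat.cast_smul_eq_nsmul K]
    rw [map_nsmul]
  have Ψzsmul : ∀ (m : ℤ) v, Ψ ((m : K) • v) = m • Ψ v := by
    intro m v
    rw [Int.cast_smul_eq_zsmul K, map_zsmul]
  let K₀ : Submodule K ((Fin C.r → K) × (Fin C.r → K)) :=
    { carrier := {v | Ψ v = 0}
      add_mem' := by
        intro v w hv hw
        show Ψ (v + w) = 0
        rw [map_add, hv, hw, add_zero]
      zero_mem' := map_zero Ψ
      smul_mem' := by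
        intro c v hv
        show Ψ (c • v) = 0
        rw [Ψsmul, hv, smul_zero] }
  have memK₀ : ∀ v, v ∈ K₀ ↔ Ψ v = 0 := fun v => Iff.rfl
  have hT : ∀ i j, T i * T j = T j * T i := by
    intro i j
    apply LinearMap.ext
    intro v
    rw [Module.End.mul_apply, Module.End.mul_apply, T_apply, T_apply, T_apply, T_apply]
    have e : ∀ w : Fin C.r → K, (Mx i).mulVec ((Mx j).mulVec w) = (Mx j).mulVec ((Mx i).mulVec w) := by
      intro w
      rw [Matrix.mulVec_mulVec, Matrix.mulVec_mulVec, hMcomm i j]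
    show ((Mx i).mulVec ((Mx j).mulVec v.1), (Mx i).mulVec ((Mx j).mulVec v.2)) =
      ((Mx j).mulVec ((Mx i).mulVec v.1), (Mx j).mulVec ((Mx i).mulVec v.2))
    rw [e, e]
  set v₀ : (Fin C.r → K) × (Fin C.r → K) := (κ ⟨t₁, memT h₁⟩, κ ⟨t₂, memT h₂⟩) with hv₀
  have Ψv₀ : Ψ v₀ = Φ (t₁, t₂) := by
    rw [Ψ_apply, hv₀, ι₀_κ h₁, ι₀_κ h₂]
  obtain ⟨v, hv, hva⟩ := exists_eigenvector_of_quotient T hT K₀
    (fun i k hk => by
      rw [memK₀] at hk ⊢
      rw [ΨT, hk, map_zero])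
    (fun i => ((a i : ℤ) : K)) (v₀ := v₀)
    (by rw [memK₀, Ψv₀]; exact h0)
    (fun i => by
      rw [memK₀, map_sub, ΨT, Ψzsmul, Ψv₀, heig, sub_self])
  -- a non-zero component
  have key : ∀ w : Fin C.r → K, w ≠ 0 → (∀ i, (Mx i).mulVec w = ((a i : ℤ) : K) • w) →
      ∃ t : JZero N, t ≠ 0 ∧ p • t = 0 ∧ ∀ i, heckeOperatorBar N (ℓ i) t = a i • t := by
    intro w hw hwa
    refine ⟨ι₀ w, ?_, ι₀_tors w, fun i => ?_⟩
    · intro h
      exact hw (ι₀_inj (h.trans (map_zero ι₀).symm))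
    · rw [← hMx, hwa, Int.cast_smul_eq_zsmul K, map_zsmul]
  have hcomp : ∀ i, (Mx i).mulVec v.1 = ((a i : ℤ) : K) • v.1 ∧
      (Mx i).mulVec v.2 = ((a i : ℤ) : K) • v.2 := by
    intro i
    have := hva i
    rw [T_apply] at this
    exact ⟨congrArg Prod.fst this, congrArg Prod.snd this⟩
  by_cases hv1 : v.1 = 0
  · have hv2 : v.2 ≠ 0 := by
      intro h
      exact hv (Prod.ext hv1 h)
    exact key v.2 hv2 (fun i => (hcomp i).2)
  · exact key v.1 hv1 (fun i => (hcomp i).1)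

end Fermat.Agent.S59lib.LevelQ2
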