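/-
S59lib / LevelQ2 / ToricEnd  (helper1)  — Project I, block LLsq: THE TORIC END.

A class `x ∈ J₀(M q²)[n]` whose Kummer function (over the `H`-fixed field) has the shape
`c · yⁿ · α^* u₁ · β^* u₂` with `u₁, u₂` Kummer functions of level `M q` is `α^* t₁ + β^* t₂`
(`exists_pull_decomp`); if moreover `x ≠ 0` is a Hecke eigenvector, `J₀(M q)[p]` contains a non-zero eigenvector
with the same eigenvalues (`exists_eigenclass_of_pull`, the support lemma), hence an eigenform of level `M q`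
(`exists_eigenform_of_pull`).
-/
import Fermat.Agent.S59lib.LevelQ2.ClassFun
import Fermat.Agent.S59lib.LevelQ2.PullJ
import Fermat.Agent.S59lib.LevelQ2.Support

set_option autoImplicit false
set_option linter.unusedSectionVars false
set_option linter.unusedVariables false
set_option linter.style.haveILetI false

noncomputable section

namespace Fermat.Agent.S59lib.LevelQ2

open AlgebraicCurve ModularCurve
open Fermat.Agent.S29lib Fermat.Agent.S29lib.D Fermat.Agent.S35lib Fermat.Agent.S35lib.New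
open Fermat.Agent.S37lib.HeckeInst
open Fermat.Agent.S36lib.Desc2 Fermat.Agent.S36lib.Norm
open Fermat.Agent.S36lib.Fin

local notation "Qb" => AlgebraicClosure ℚ
local notation "GQ" => (AlgebraicClosure ℚ ≃ₐ[ℚ] AlgebraicClosure ℚ)
local notation "Zbar" => integralClosure ℤ ℂ

/-- **the converse dictionary**: a Kummer function of `x` of the shape `c · yⁿ · f₁ · f₂` with `f_i` Kummer
functions of the classes `t_i` gives `x = t₁ + t₂`. -/
theorem eq_add_of_kummer_factor {K F : Type*} [Field K] [Field F] [Algebra K F]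
    [HasPrincipalDivisors K F] {n : ℕ} (hn : 0 < n) {x t₁ t₂ : Pic0 K F} {u f₁ f₂ y : F} {c : K}
    (hx : KummerRel n x u) (h₁ : KummerRel n t₁ f₁) (h₂ : KummerRel n t₂ f₂) (hc : c ≠ 0)
    (hy : y ≠ 0) (hu : u = algebraMap K F c * y ^ n * (f₁ * f₂)) : x = t₁ + t₂ := by
  have h := ((h₁.mul h₂).mul_pow hy).unit_mul (w := algebraMap K F c) ((map_ne_zero _).2 hc)
    (fun P => S18lib.Cech.ord_const P c)
  have e : algebraMap K F c * (f₁ * f₂ * y ^ n) = u := by rw [hu]; ring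
  rw [e] at h
  exact KummerRel_class_unique hn hx h

/-- the class of a Kummer function of the fixed field -/
theorem exists_class_of_isKumFn {N : ℕ} [NeZero N] {H : Subgroup GQ} {n : ℕ} (hn : 0 < n)
    {u : fixF N H} (hu : IsKumFn H n u) : ∃ t : JZero N, KummerRel n t (u : FB N) := by
  haveI := hasPrincipalDivisors_FB N
  obtain ⟨E, hE⟩ := hu.2
  exact exists_kummerRel_of_dvd hn hu.coe_ne_zero (fun P => ⟨E P, (hE P).symm⟩)

section Pull

variable {M q : ℕ} [NeZero M] [NeZero q] [NeZero (M * q)] [NeZero (M * q * q)] {H : Subgroup GQ}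

/-- **`x = α^* t₁ + β^* t₂`** -/
theorem exists_pull_decomp {n : ℕ} (hn : 0 < n) {x : JZero (M * q * q)} {u : fixF (M * q * q) H}
    (hx : KummerRel n x (u : FB (M * q * q))) {u₁ u₂ : fixF (M * q) H} (hu₁ : IsKumFn H n u₁)
    (hu₂ : IsKumFn H n u₂) {c : fixK H} {y : fixF (M * q * q) H} (hc : c ≠ 0) (hy : y ≠ 0)
    (hu : u = algebraMap (fixK H) (fixF (M * q * q) H) c * y ^ n *
      (alphaFix M q H u₁ * betaFix M q H u₂)) :
    ∃ t₁ t₂ : JZero (M * q), (n : ℤ) • t₁ = 0 ∧ (n : ℤ) • t₂ = 0 ∧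
      x = pullA (M * q) q t₁ + pullB (M * q) q t₂ := by
  haveI := hasPrincipalDivisors_FB (M * q * q)
  obtain ⟨t₁, ht₁⟩ := exists_class_of_isKumFn hn hu₁
  obtain ⟨t₂, ht₂⟩ := exists_class_of_isKumFn hn hu₂
  refine ⟨t₁, t₂, ht₁.torsion, ht₂.torsion, ?_⟩
  have h₁ := kummerRel_pullA (q := q) ht₁
  have h₂ := kummerRel_pullB (q := q) ht₂
  refine eq_add_of_kummer_factor (c := algebraMap (fixK H) Qb c)
    (y := (y : FB (M * q * q))) hn hx h₁ h₂ ((map_ne_zero _).2 hc)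
    (fun h0 => hy (Subtype.ext h0)) ?_
  have := congrArg (fun w : fixF (M * q * q) H => (w : FB (M * q * q))) hu
  exact this

end Pull

section Eigen

variable (M q : ℕ) [NeZero M] [NeZero q] [NeZero (M * q)] [NeZero (M * q * q)]
variable (hq : q.Prime) (hqM : ¬ q ∣ M)

include hq hqM in
/-- **the support lemma for `α^* ⊕ β^*`**: a non-zero Hecke eigenvector `α^* t₁ + β^* t₂` of `J₀(M q²)[p]` forces
a non-zero eigenvector of `J₀(M q)[p]`. -/
theorem exists_eigenclass_of_pull {p : ℕ} (hp : p.Prime) (a : ℕ → ℤ) (S : ℕ → Prop)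
    (hS : ∀ ℓ, S ℓ → ℓ.Prime ∧ ¬ ℓ ∣ M * q) {t₁ t₂ : JZero (M * q)} (h₁ : (p : ℤ) • t₁ = 0)
    (h₂ : (p : ℤ) • t₂ = 0) (h0 : pullA (M * q) q t₁ + pullB (M * q) q t₂ ≠ 0)
    (heig : ∀ (ℓ : ℕ) (hℓ : ℓ.Prime), S ℓ →
      heckeOperatorBar (M * q * q) ⟨ℓ, hℓ⟩ (pullA (M * q) q t₁ + pullB (M * q) q t₂) =
        a ℓ • (pullA (M * q) q t₁ + pullB (M * q) q t₂)) :
    ∃ t : JZero (M * q), t ≠ 0 ∧ p • t = 0 ∧
      ∀ (ℓ : ℕ) (hℓ : ℓ.Prime), S ℓ → heckeOperatorBar (M * q) ⟨ℓ, hℓ⟩ t = a ℓ • t := by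
  have hp0 : 0 < p := hp.pos
  let ι := {ℓ : ℕ // S ℓ}
  let P : ι → Nat.Primes := fun i => ⟨i.1, (hS i.1 i.2).1⟩
  have hP : ∀ i : ι, ¬ ((P i : ℕ)) ∣ M * q := fun i => (hS i.1 i.2).2
  let Φ : JZero (M * q) × JZero (M * q) →+ JZero (M * q * q) :=
    (pullA (M * q) q).coprod (pullB (M * q) q)
  have Φ_apply : ∀ s₁ s₂, Φ (s₁, s₂) = pullA (M * q) q s₁ + pullB (M * q) q s₂ := fun _ _ => rfl
  have hP' : ∀ i : ι, ¬ ((P i : ℕ)) ∣ M * q * q := by
    intro i h
    rcases (Nat.Prime.dvd_mul (P i).2).1 h with h1 | h1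
    · exact hP i h1
    · exact hP i (h1.trans (Dvd.intro_left M rfl))
  have tz : ∀ {t : JZero (M * q)}, p • t = 0 → (p : ℤ) • t = 0 := by
    intro t ht
    rw [natCast_zsmul]; exact ht
  have zt : ∀ {t : JZero (M * q)}, (p : ℤ) • t = 0 → p • t = 0 := by
    intro t ht
    rw [natCast_zsmul] at ht; exact ht
  obtain ⟨t, ht0, hpt, hte⟩ := exists_eigenclass_of_image (M * q) hp Φ P hP
    (fun i => heckeOperatorBar (M * q * q) (P i))
    (fun i s₁ s₂ hs₁ hs₂ => by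
      rw [Φ_apply, Φ_apply, map_add]
      have e1 := hecke_pullA (N := M * q) (q := q) (P i) (hP' i) hp0 s₁ (tz hs₁)
      have e2 := hecke_pullB M q hq hqM (P i) (hP i) hp0 s₂ (tz hs₂)
      exact congrArg₂ (· + ·) e1 e2)
    (fun i => a i.1) (zt h₁) (zt h₂) (by rw [Φ_apply]; exact h0)
    (fun i => by rw [Φ_apply]; exact heig i.1 (hS i.1 i.2).1 i.2)
  exact ⟨t, ht0, hpt, fun ℓ hℓ hSℓ => hte ⟨ℓ, hSℓ⟩⟩

end Eigen

end Fermat.Agent.S59lib.LevelQ2
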