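/-
S59lib / LevelQ2 / Main  (helper1)  — Project I, block LLsq: THE CLASS LEVEL AT `q ≥ 5`, ELLIPTIC-FREE `M`.

`x ∈ J₀(M q²)[p]` non-zero, `q`-new, fixed by the inertia group `I_A` (`A ∣ q`), a Hecke eigenvector with a
non-Eisenstein eigensystem `a` on `S`  ⟹  a non-zero Hecke eigenclass with the same eigenvalues in `J₀(M)[p]`
(the middle readout) or in `J₀(M q)[p]` (the toric end).

Assembly of: `ModInst.exists_finD_thickCtx` (the thick datum), helper4's `modChainCtx`, `toricDecompStmt`,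
`midDiv'`, helper3's `heckeEquiv_finD`, and `QNew`, `MidAbs`, `MidRead`, `ToricEnd` of this directory.
-/
import Fermat.Agent.S59lib.LevelQ2.QNew
import Fermat.Agent.S59lib.LevelQ2.MidAbs
import Fermat.Agent.S59lib.LevelQ2.MidRead
import Fermat.Agent.S59lib.LevelQ2.ToricEnd
import Fermat.Agent.S59lib.LevelQ2.ModInst
import Fermat.Agent.S59lib.LLsqHk.InstFin
import Fermat.Agent.S59lib.LLsq.ToricDecomp
import Fermat.Agent.S59lib.LLsq.MidDiv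

set_option autoImplicit false
set_option linter.unusedSectionVars false
set_option linter.unusedVariables false
set_option linter.style.haveILetI false

noncomputable section

namespace Fermat.Agent.S59lib.LevelQ2

open AlgebraicCurve ModularCurve IsLocalRing
open Fermat.Agent.S18lib Fermat.Agent.S28lib Fermat.Agent.ProgramR
open Fermat.Agent.S29lib Fermat.Agent.S29lib.D Fermat.Agent.S35lib
open Fermat.Agent.S36lib Fermat.Agent.S36lib.Thick Fermat.Agent.S36lib.Desc Fermat.Agent.S36lib.Desc2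
open Fermat.Agent.S36lib.Inst Fermat.Agent.S36lib.Norm Fermat.Agent.S36lib.J
open Fermat.Agent.S36lib.Fin
open Fermat.Agent.S37lib.HeckeInst (FB)
open Fermat.Agent.LSc (IsConstMulPow)
open Fermat.Agent.S59lib.LLsq Fermat.Agent.S59lib.LLsqHk

local notation "Qb" => AlgebraicClosure ℚ

variable {M q : ℕ} [NeZero M] [NeZero q] [hq : Fact q.Prime] {A : ValuationSubring Qb}
  {hqM : ¬ q ∣ M} {hA : A.LiesOverPrime q}

variable [HasPrincipalDivisors (IsLocalRing.ResidueField A) (FRes A M)]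
variable [HasPrincipalDivisors (IsLocalRing.ResidueField (Wfix A)) (FRes A M)]
variable [HasPrincipalDivisors Qb (FBar M)]
variable [NeZero (M * q)]
variable [HasPrincipalDivisors Qb (FBar (M * q))]
variable [NeZero (M * q * q)]

/-- the residue of an integer modulo `p` as a natural number -/
def natRep (p : ℕ) (a : ℤ) : ℕ := (a % (p : ℤ)).toNat

theorem natRep_modEq {p : ℕ} (hp : p ≠ 0) (a : ℤ) : (natRep p a : ℤ) ≡ a [ZMOD p] := by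
  have hpZ : (p : ℤ) ≠ 0 := by exact_mod_cast hp
  rw [natRep, Int.toNat_of_nonneg (Int.emod_nonneg a hpZ)]
  exact Int.mod_modEq a p

/-- **the class level, `q`-new part, for a given thick context** -/
theorem exists_eigenclass_of_qnew_thick (h5 : 5 ≤ q) (hν2 : nuTwo M = 0) (hν3 : nuThree M = 0)
    {p g gM : ℕ} (hp : p.Prime) (hqp : ¬ q ∣ p)
    (hF : IsCurveOfGenus Qb (FBar (M * q * q)) g)
    (hFk : IsCurveOfGenus (IsLocalRing.ResidueField A) (FRes A M) gM)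
    (ϖ : FTop M q A) (h0 : (topD M q A hqM hA).V₂.unif ≠ 0)
    (hv : (topD M q A hqM hA).V₂.O.valuation ϖ =
      (topD M q A hqM hA).V₂.O.valuation (topD M q A hqM hA).V₂.unif)
    (C : ThickCtx (finD (hqM := hqM) (hA := hA) ϖ h0 hv) g gM gM gM)
    (a : ℕ → ℤ) (S : ℕ → Prop) (hS : ∀ ℓ, S ℓ → ℓ.Prime ∧ ¬ ℓ ∣ M * q)
    (hne : ∃ ℓ, S ℓ ∧ ¬ (p : ℤ) ∣ a ℓ - (ℓ + 1))
    {x : JZero (M * q * q)} (hx : x ∈ Tors (M * q * q) p) (hx0 : x ≠ 0)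
    (hnew : IsQNew (M * q) q x) (hfix : ∀ σ ∈ HI A, σ • x = x)
    (heig : ∀ (ℓ : ℕ) (hℓ : ℓ.Prime), S ℓ → heckeOperatorBar (M * q * q) ⟨ℓ, hℓ⟩ x = a ℓ • x) :
    (∃ t : JZero M, t ≠ 0 ∧ (p : ℤ) • t = 0 ∧
      ∀ (ℓ : ℕ) (hℓ : ℓ.Prime), S ℓ → heckeOperatorBar M ⟨ℓ, hℓ⟩ t = a ℓ • t) ∨
    (∃ t : JZero (M * q), t ≠ 0 ∧ p • t = 0 ∧
      ∀ (ℓ : ℕ) (hℓ : ℓ.Prime), S ℓ → heckeOperatorBar (M * q) ⟨ℓ, hℓ⟩ t = a ℓ • t) := by
  classical
  have hp0 : p ≠ 0 := hp.ne_zero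
  have hqn : Nat.Coprime q p := (Nat.Prime.coprime_iff_not_dvd hq.out).2 hqp
  -- the data
  set V₁ := topV₁ M q A hqM hA with hV₁
  set V₃ := topV₃ M q A hqM hA with hV₃
  set V₂ := Reg.ramWithUnif (topV₂ M q A hqM hA) ϖ h0 hv with hV₂
  have Xα := finD_alphaData (hqM := hqM) (hA := hA) ϖ h0 hv C
  have Xβ := finD_betaData (hqM := hqM) (hA := hA) ϖ h0 hv C
  have ne₁₃ : V₁.O ≠ V₃.O := Val.gaussInfK₂_O_ne_gaussZeroK₂_O M q A hqM hA
  have X := modChainCtx V₁ V₃ V₂ hp0 hqn hF hFk C Xα Xβ ne₁₃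
  -- the index set
  let ι := {ℓ : ℕ // S ℓ}
  haveI instι : ∀ i : ι, NeZero (i.1) := fun i => ⟨(hS i.1 i.2).1.ne_zero⟩
  have hℓ : ∀ i : ι, (i.1).Prime := fun i => (hS i.1 i.2).1
  have hℓM : ∀ i : ι, ¬ i.1 ∣ M := fun i h => (hS i.1 i.2).2 (Dvd.dvd.mul_right h q)
  have hqℓ : ∀ i : ι, q ≠ i.1 := by
    intro i h
    exact (hS i.1 i.2).2 (h ▸ Dvd.intro_left M rfl)
  have hH : ∀ i : ι, HeckeEquiv (finD (hqM := hqM) (hA := hA) ϖ h0 hv)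
      (heckeFix (M * q * q) i.1 (HI A)) (i.1 + 1) (heckeFunKHom M A i.1) :=
    fun i => heckeEquiv_finD (hℓ i) (hℓM i) (hqℓ i) ϖ h0 hv C
  obtain ⟨ℓ₀, hSℓ₀, hℓ₀⟩ := hne
  have hcop : IsCoprime ((((⟨ℓ₀, hSℓ₀⟩ : ι).1 + 1 : ℕ) : ℤ) - (natRep p (a ℓ₀) : ℤ)) (p : ℤ) := by
    have hpP : Prime (p : ℤ) := Nat.prime_iff_prime_int.1 hp
    refine ((Prime.coprime_iff_not_dvd hpP).2 ?_).symm
    intro hd
    apply hℓ₀
    have h1 := (Int.modEq_iff_dvd).1 (natRep_modEq hp0 (a ℓ₀))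
    -- `p ∣ a - a'` and `p ∣ (ℓ₀ + 1) - a'`
    have h2 : (p : ℤ) ∣ (a ℓ₀ - (natRep p (a ℓ₀) : ℤ)) - ((((ℓ₀ + 1 : ℕ) : ℤ)) - (natRep p (a ℓ₀) : ℤ)) :=
      dvd_sub h1 hd
    have e : (a ℓ₀ - (natRep p (a ℓ₀) : ℤ)) - ((((ℓ₀ + 1 : ℕ) : ℤ)) - (natRep p (a ℓ₀) : ℤ)) =
        a ℓ₀ - ((ℓ₀ : ℤ) + 1) := by push_cast; ring
    rwa [e] at h2
  obtain ⟨u, u', y, hrel, hu'K, hyP, huy, v₁, v₂, v₃, hNα', hNβ', r₁, r₃, r₂, re⟩ :=
    exists_reduction_data_of_qnew (N := M * q) (q := q) (H := HI A) X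
      (fun u hu hE => ⟨hu, hE⟩)
      (fun u => coe_normHom_alphaFix M q (HI A) hq.out hqM u)
      (fun u => coe_normHom_betaFix M q (HI A) hq.out hqM u)
      (hasStableReps (M * q * q) _) (hasFixedGenerators (M * q * q) _)
      (hasFixedGenerators (M * q) _)
      (fun i : ι => i.1) hℓ (fun i : ι => heckeFunKHom M A i.1) hH
      (fun i : ι => a i.1) (fun i : ι => natRep p (a i.1))
      (fun i => natRep_modEq hp0 (a i.1)) hx hnew hfix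
      (fun i => heig i.1 (hℓ i) i.2) ⟨ℓ₀, hSℓ₀⟩ hcop
  set D := finD (hqM := hqM) (hA := hA) ϖ h0 hv with hD
  by_cases hρ : IsConstMulPow (A := Wfix A) p (D.red₂ u')
  · -- the toric end
    right
    obtain ⟨z, xx, b₁, b₂, b₃, hzK, hz, -, -, hxx0, hu'z⟩ :=
      exists_triUnit_of_red₂ X hu'K v₁ v₂ v₃ hNα' hNβ' r₁ hρ r₃
    obtain ⟨u₁, u₂, c₁, c₂, d₁, d₂, c, yy, hu₁, hu₂, hc0, hyy0, hzy⟩ :=
      toricDecompStmt V₁ V₃ V₂ hp hqp hF hFk C Xα Xβ ne₁₃ h5 hν2 hν3 hzK hz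
    obtain ⟨cy, hh, hcy0, hh0, hyeq⟩ := hyP
    have hu : u = algebraMap (Kfix A) (FTop M q A) (c * cy) * (yy * xx * hh) ^ p *
        (alphaFix M q (HI A) u₁ * betaFix M q (HI A) u₂) := by
      rw [huy, hu'z, hzy, hyeq, map_mul, mul_pow, mul_pow]
      ring
    obtain ⟨t₁, t₂, ht₁, ht₂, hxt⟩ := exists_pull_decomp (M := M) (q := q) (H := HI A) hp.pos hrel
      hu₁.kum hu₂.kum (mul_ne_zero hc0 hcy0) (mul_ne_zero (mul_ne_zero hyy0 hxx0) hh0) hu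
    have h0' : pullA (M * q) q t₁ + pullB (M * q) q t₂ ≠ 0 := by rw [← hxt]; exact hx0
    exact exists_eigenclass_of_pull M q hq.out hqM hp a S hS ht₁ ht₂ h0'
      (fun ℓ hℓ' hSℓ => by rw [← hxt]; exact heig ℓ hℓ' hSℓ)
  · -- the middle readout
    left
    have hn : ((p : ℕ) : IsLocalRing.ResidueField (Wfix A)) ≠ 0 := natCast_resW_ne_zero hA hqn
    have hMid : MidDivAt D g p := fun z E b₁ b₃ hb₁ hb₃ h₁ h₃ h₂ =>
      midDiv' C hn E hb₁ hb₃ h₁ h₃ h₂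
    have hρ0 : D.red₂ u' ≠ 0 := place_redF_ne_zero_of_valuation_eq_one (P₂ D) v₂
    exact exists_eigenclass_of_mid hqM hA hp0 hqp a (fun ℓ => natRep p (a ℓ)) S hS
      (fun ℓ _ => natRep_modEq hp0 (a ℓ)) hρ0 hρ
      (fun Q => dvd_ord_red₂_of_midDivAt X hMid hu'K v₁ v₂ v₃ r₁ r₃ Q)
      (fun ℓ _ hSℓ => re ⟨ℓ, hSℓ⟩)

end Fermat.Agent.S59lib.LevelQ2
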