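/-
S59lib / LevelQ2 / Free  (helper1)  — Project I, block LLsq: MAZUR'S PRINCIPLE AT `q²`, `q ≥ 5`, ELLIPTIC-FREE `M`.

`mazurQ2Free : MazurQ2FreeStmt` : a non-zero class `x ∈ J₀(M q²)[p]` (`q ∤ M`, `p ≠ q`, `q ≥ 5`,
`nuTwo M = nuThree M = 0`), fixed by the inertia group at `A ∣ q` and a Hecke eigenvector with a non-Eisenstein
eigensystem `a` on a set `S` of primes prime to `M q p`, forces a normalized eigenform of level `M q` congruent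
to `a` on `S`.

* `x` not `q`-new: `α_* x ≠ 0` or `β_* x ≠ 0` is a Hecke eigenclass of `J₀(M q)[p]` (`S36lib.R2.pushA_TJ_dvd`);
* `x` `q`-new: `Main.exists_eigenclass_of_qnew_thick` gives an eigenclass in `J₀(M)[p]` or `J₀(M q)[p]`;
* eigenclass ⟹ eigenform: `S43lib.B0.exists_eigenform_of_torsion_eigenclass` (+ `Theta.exists_eigenform_of_dvd`).
-/
import Fermat.Agent.S59lib.LevelQ2.Main
import Fermat.Agent.S36lib.R2.PushHeckeJDvd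
import Fermat.Agent.S43lib.Theta.Level
import Fermat.Agent.S44lib.Iface

set_option autoImplicit false
set_option linter.unusedSectionVars false
set_option linter.unusedVariables false
set_option linter.style.haveILetI false

noncomputable section

namespace Fermat.Agent.S59lib.LevelQ2

open AlgebraicCurve ModularCurve IsLocalRing CongruenceSubgroup
open Fermat.Agent.S18lib Fermat.Agent.S28lib
open Fermat.Agent.S19lib Fermat.Agent.S33lib Fermat.Agent.S44lib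
open Fermat.Agent.S29lib Fermat.Agent.S35lib Fermat.Agent.S35lib.New
open Fermat.Agent.S36lib Fermat.Agent.S36lib.Desc Fermat.Agent.S36lib.Inst

local notation "Qb" => AlgebraicClosure ℚ
local notation "GQ" => (AlgebraicClosure ℚ ≃ₐ[ℚ] AlgebraicClosure ℚ)
local notation "Zbar" => integralClosure ℤ ℂ

/-- **MP(q²) at `q ≥ 5` and elliptic-free `M`** (level written `M * q * q`). -/
def MazurQ2FreeStmt : Prop :=
  ∀ (M q p : ℕ) [NeZero (M * q * q)], 0 < M → q.Prime → ¬ q ∣ M → p.Prime → p ≠ q → 5 ≤ q →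
    nuTwo M = 0 → nuThree M = 0 →
    ∀ A : ValuationSubring Qb, A.LiesOverPrime q →
    ∀ (a : ℕ → ℤ) (S : ℕ → Prop), (∀ ℓ, S ℓ → ℓ.Prime ∧ ¬ ℓ ∣ M * q * q ∧ ℓ ≠ p) →
      (∃ ℓ, S ℓ ∧ ¬ (p : ℤ) ∣ a ℓ - (ℓ + 1)) →
      ∀ x ∈ tors (M * q * q) (p : ℤ), x ≠ 0 → (∀ σ ∈ IA A, σ • x = x) →
      (∀ (ℓ : ℕ) (hℓ : ℓ.Prime), S ℓ → heckeOperatorBar (M * q * q) ⟨ℓ, hℓ⟩ x = (a ℓ) • x) →
      ∃ (g : CuspForm (Gamma0 (M * q)) 2) (𝔪 : Ideal Zbar),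
        g.IsNormalizedEigenform ∧ 𝔪.IsMaximal ∧ (p : Zbar) ∈ 𝔪 ∧ CongruentTo g 𝔪 a S

/-- eigenclass of level `N` ⟹ eigenform of level `N'`, `N ∣ N'` -/
theorem exists_eigenform_of_eigenclass_dvd {N N' : ℕ} [NeZero N] [NeZero N'] (hNN' : N ∣ N')
    {p : ℕ} (hp : p.Prime) (a : ℕ → ℤ) (S : ℕ → Prop) (hS : ∀ ℓ, S ℓ → ℓ.Prime ∧ ¬ ℓ ∣ N')
    {t : JZero N} (ht0 : t ≠ 0) (hpt : p • t = 0)
    (hT : ∀ (ℓ : ℕ) (hℓ : ℓ.Prime), S ℓ → heckeOperatorBar N ⟨ℓ, hℓ⟩ t = a ℓ • t) :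
    ∃ (g : CuspForm (Gamma0 N') 2) (𝔪 : Ideal Zbar),
      g.IsNormalizedEigenform ∧ 𝔪.IsMaximal ∧ (p : Zbar) ∈ 𝔪 ∧ CongruentTo g 𝔪 a S := by
  haveI : Fact p.Prime := ⟨hp⟩
  have hS' : ∀ ℓ, S ℓ → ℓ.Prime ∧ ¬ ℓ ∣ N := fun ℓ h =>
    ⟨(hS ℓ h).1, fun hd => (hS ℓ h).2 (hd.trans hNN')⟩
  obtain ⟨g₀, 𝔪, hg₀, h𝔪, hp𝔪, hc₀⟩ :=
    Fermat.Agent.S43lib.B0.exists_eigenform_of_torsion_eigenclass N p t ht0 hpt a S hS' hT
  obtain ⟨g, hg, hc⟩ := Fermat.Agent.S43lib.Theta.exists_eigenform_of_dvd hNN' (NeZero.ne N') g₀ hg₀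
  refine ⟨g, 𝔪, hg, h𝔪, hp𝔪, fun ℓ hSℓ => ?_⟩
  obtain ⟨b, hb, hb𝔪⟩ := hc₀ ℓ hSℓ
  exact ⟨b, by rw [hb, hc ℓ (hS ℓ hSℓ).1 (hS ℓ hSℓ).2], hb𝔪⟩

/-- **the old case**: a class of `J₀(M q²)[p]` which is not `q`-new and is a Hecke eigenvector gives an eigenform
of level `M q` (push forward along `α` or `β`). -/
theorem exists_eigenform_of_not_isQNew {M q p : ℕ} [NeZero M] [NeZero q] [NeZero (M * q)]
    [NeZero (M * q * q)] [Fact q.Prime] (hp : p.Prime) (a : ℕ → ℤ) (S : ℕ → Prop)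
    (hS : ∀ ℓ, S ℓ → ℓ.Prime ∧ ¬ ℓ ∣ M * q * q ∧ ℓ ≠ p) {x : JZero (M * q * q)}
    (hpZ : (p : ℤ) • x = 0) (hnew : ¬ IsQNew (M * q) q x)
    (heig : ∀ (ℓ : ℕ) (hℓ : ℓ.Prime), S ℓ → heckeOperatorBar (M * q * q) ⟨ℓ, hℓ⟩ x = (a ℓ) • x) :
    ∃ (g : CuspForm (Gamma0 (M * q)) 2) (𝔪 : Ideal Zbar),
      g.IsNormalizedEigenform ∧ 𝔪.IsMaximal ∧ (p : Zbar) ∈ 𝔪 ∧ CongruentTo g 𝔪 a S := by
  have hS1 : ∀ ℓ, S ℓ → ℓ.Prime ∧ ¬ ℓ ∣ M * q := fun ℓ h =>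
    ⟨(hS ℓ h).1, fun hd => (hS ℓ h).2.1 (Dvd.dvd.mul_right hd q)⟩
  have hdvd1 : M * q ∣ M * q := dvd_rfl
  have hqN : q ∣ M * q := Dvd.intro_left M rfl
  have key : ∀ (π : JZero (M * q * q) →+ JZero (M * q)), π x ≠ 0 →
      (∀ (ℓ : Nat.Primes), ¬ (ℓ : ℕ) ∣ M * q * q →
        π (H.TJ (M * q * q) ℓ x) = H.TJ (M * q) ℓ (π x)) →
      ∃ (g : CuspForm (Gamma0 (M * q)) 2) (𝔪 : Ideal Zbar),
        g.IsNormalizedEigenform ∧ 𝔪.IsMaximal ∧ (p : Zbar) ∈ 𝔪 ∧ CongruentTo g 𝔪 a S := by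
    intro π hπ0 hπT
    refine exists_eigenform_of_eigenclass_dvd hdvd1 hp a S hS1 hπ0 ?_ ?_
    · rw [← map_nsmul, ← natCast_zsmul, hpZ, map_zero]
    · intro ℓ hℓ hSℓ
      have h1 := hπT ⟨ℓ, hℓ⟩ (hS ℓ hSℓ).2.1
      rw [H.TJ_good (M * q * q) ⟨ℓ, hℓ⟩ (hS ℓ hSℓ).2.1, H.TJ_good (M * q) ⟨ℓ, hℓ⟩ (hS1 ℓ hSℓ).2,
        heig ℓ hℓ hSℓ, map_zsmul] at h1
      exact h1.symm
  by_cases hα : pushAlpha (M * q) q x = 0
  · have hβ : pushBeta (M * q) q x ≠ 0 := fun h => hnew ⟨hα, h⟩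
    exact key (pushBeta (M * q) q) hβ (fun ℓ hℓ =>
      Fermat.Agent.S36lib.R2.pushB_TJ_dvd hqN ℓ hℓ hp.pos x hpZ)
  · exact key (pushAlpha (M * q) q) hα (fun ℓ hℓ =>
      Fermat.Agent.S36lib.R2.pushA_TJ_dvd hqN ℓ hℓ hp.pos x hpZ)

/-- **MP(q²) at `q ≥ 5` and elliptic-free `M`.** -/
theorem mazurQ2Free : MazurQ2FreeStmt := by
  intro M q p _ hM hq hqM hp hpq h5 hν2 hν3 A hA a S hS hne x hx hx0 hfix heig
  haveI : Fact q.Prime := ⟨hq⟩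
  haveI : NeZero M := ⟨hM.ne'⟩
  haveI : NeZero q := ⟨hq.ne_zero⟩
  haveI : NeZero (M * q) := ⟨Nat.mul_ne_zero hM.ne' hq.ne_zero⟩
  have hqp : ¬ q ∣ p := fun h => hpq ((Nat.prime_dvd_prime_iff_eq hq hp).1 h).symm
  have hpZ : (p : ℤ) • x = 0 := (Submodule.mem_torsionBy_iff _ _).1 hx
  have hxT : x ∈ Tors (M * q * q) p := hx
  -- `S` at the level `M q`
  have hS1 : ∀ ℓ, S ℓ → ℓ.Prime ∧ ¬ ℓ ∣ M * q := fun ℓ h =>
    ⟨(hS ℓ h).1, fun hd => (hS ℓ h).2.1 (Dvd.dvd.mul_right hd q)⟩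
  have hdvd1 : M * q ∣ M * q := dvd_rfl
  have hdvd0 : M ∣ M * q := Dvd.intro q rfl
  by_cases hnew : IsQNew (M * q) q x
  · -- the `q`-new case
    obtain ⟨g, hF, -⟩ := Gin0.exists_isCurveOfGenus_FBar (M * q * q)
    obtain ⟨gM, hFk⟩ := S37lib.B3.exists_isCurveOfGenus_FRes (A := A) M hqM hA
    haveI : HasPrincipalDivisors (IsLocalRing.ResidueField A) (FRes A M) :=
      hFk.hasPrincipalDivisors
    haveI : HasPrincipalDivisors (IsLocalRing.ResidueField (Wfix A)) (FRes A M) :=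
      hasPrincipalDivisors_resW hq hA hFk.hasPrincipalDivisors
    haveI : HasPrincipalDivisors Qb (FBar M) := S37lib.HeckeInst.hasPrincipalDivisors_FB M
    haveI : HasPrincipalDivisors Qb (FBar (M * q)) :=
      S37lib.HeckeInst.hasPrincipalDivisors_FB (M * q)
    obtain ⟨ϖ, h0, hv, C⟩ := exists_finD_thickCtx (hqM := hqM) (hA := hA) h5 hν2 hν3 hF hFk
    rcases exists_eigenclass_of_qnew_thick h5 hν2 hν3 hp hqp hF hFk ϖ h0 hv C a S hS1 hne hxT hx0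
      hnew hfix heig with ⟨t, ht0, hpt, hT⟩ | ⟨t, ht0, hpt, hT⟩
    · exact exists_eigenform_of_eigenclass_dvd hdvd0 hp a S hS1 ht0
        (by rw [natCast_zsmul] at hpt; exact hpt) hT
    · exact exists_eigenform_of_eigenclass_dvd hdvd1 hp a S hS1 ht0 hpt hT
  · -- the old case: push forward
    exact exists_eigenform_of_not_isQNew hp a S hS hpZ hnew heig

end Fermat.Agent.S59lib.LevelQ2
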