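/-
S59lib / LevelQ2 / Small  (helper1)  — Project I, block LLsq: THE PRIMES `q = 2, 3` (`p ≥ 5`).

Main's `S36lib` proves (C36) — a `q`-new, inertia-fixed class of `J₀(M q²)[p^k]` is killed by `(q² − 1)²` — at the
auxiliary levels (`9 ∣ M` for `q = 2`, `4 ∣ M` for `q = 3`).  Here it is transferred down to ANY level `M` in two
prime steps with EXPLICIT constants (`levelDeg` of a prime step is `r` or `r + 1`), so that for `p ≥ 5` the
`q`-new inertia-fixed part of `J₀(M q²)[p]` vanishes: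

* `levelDeg_prime_step`  : `levelDeg (N ∣ N r) ∈ {r, r + 1}` for a prime `r`;
* `qnew_kill_of_mul`     : the explicit transfer (`S36lib.Xfer.inertiaNewTors_of_mul` with the constant exposed);
* `qnew_eq_zero_small`   : `q ∈ {2, 3}`, `p ≥ 5`: `q`-new + inertia-fixed + `p`-torsion ⟹ `x = 0`;
* **`mazurQ2Small`**     : MP(q²) for `q ∈ {2, 3}`, `p ≥ 5`.
-/
import Fermat.Agent.S59lib.LevelQ2.Free
import Fermat.Agent.S36lib.J.Close
import Fermat.Agent.S36lib.Eis.Degree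
import Fermat.Agent.LSc.Inst.DegInst

set_option autoImplicit false
set_option linter.unusedSectionVars false
set_option linter.unusedVariables false
set_option linter.style.haveILetI false

noncomputable section

namespace Fermat.Agent.S59lib.LevelQ2

open AlgebraicCurve ModularCurve IsLocalRing CongruenceSubgroup
open Fermat.Agent.S18lib Fermat.Agent.S28lib
open Fermat.Agent.S19lib Fermat.Agent.S33lib Fermat.Agent.S44lib
open Fermat.Agent.S29lib Fermat.Agent.S29lib.D Fermat.Agent.S35lib Fermat.Agent.S35lib.New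
open Fermat.Agent.S36lib Fermat.Agent.S36lib.Desc Fermat.Agent.S36lib.Inst
open Fermat.Agent.S36lib.Xfer Fermat.Agent.LSc.Xfer
open Fermat.Agent.S37lib.HeckeInst

local notation "Qb" => AlgebraicClosure ℚ
local notation "GQ" => (AlgebraicClosure ℚ ≃ₐ[ℚ] AlgebraicClosure ℚ)
local notation "Zbar" => integralClosure ℤ ℂ

/-! ### degrees of the prime steps -/

/-- `levelDeg` only depends on the levels -/
theorem levelDeg_congr {N N' N'' : ℕ} [NeZero N] [NeZero N'] [NeZero N''] (e : N' = N'')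
    (h : N ∣ N') (h' : N ∣ N'') : levelDeg h = levelDeg h' := by
  subst e
  rfl

/-- the degree of `α : FBar N → FBar (N r)`, `r` prime, is `r` or `r + 1` -/
theorem finrankAlong_alpha_prime (N r : ℕ) [NeZero N] [NeZero r] (hr : r.Prime) :
    finrankAlong Qb (heckeAlphaBar Qb N r) = r + 1 ∨ finrankAlong Qb (heckeAlphaBar Qb N r) = r := by
  by_cases hrN : r ∣ N
  · right
    obtain ⟨M', hM'⟩ := hrN
    have e : N = M' * r := by rw [hM', mul_comm]
    subst e
    haveI : NeZero M' := ⟨fun h0 => NeZero.ne (M' * r) (by rw [h0, zero_mul])⟩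
    exact Fermat.Agent.S36lib.Eis.finrankAlong_alpha_dvd M' r hr
  · left
    exact S37lib.ConjNorm.finrank_alpha N r hr hrN

/-- the degree of a prime step of levels -/
theorem levelDeg_prime_step (N r : ℕ) [NeZero N] [NeZero r] [NeZero (N * r)] (hr : r.Prime)
    (h : N ∣ N * r) : levelDeg h = r + 1 ∨ levelDeg h = r := by
  have e : V.inclL h = heckeAlphaBar Qb N r :=
    AlgHom.ext (fun x => inclL_dvd_mul_right N r x)
  unfold levelDeg
  rw [e]
  exact finrankAlong_alpha_prime N r hr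

/-! ### the explicit transfer -/

/-- `q`-new, inertia-fixed `p`-power torsion classes of `J₀(N q)` are killed by `d` -/
def QNewKill (N q p d : ℕ) [NeZero N] [NeZero q] : Prop :=
  ∀ A : ValuationSubring Qb, A.LiesOverPrime q →
    ∀ (k : ℕ) (x : JZero (N * q)), x ∈ Tors (N * q) (p ^ k) → IsQNew N q x →
      (∀ σ ∈ A.inertiaSubgroupIn ℚ, σ • x = x) → (d : ℤ) • x = 0

section Transfer

variable {N N' q : ℕ} [NeZero N] [NeZero N'] [NeZero q] [Fact q.Prime]

/-- **the explicit transfer** from the level `N' q = N r q` (`q ∤ r`) down to the level `N q` -/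
theorem qnewKill_of_mul {p : ℕ} (hp : p.Prime) (h : N ∣ N') (hqN : q ∣ N) (r : ℕ)
    (hN' : N' = N * r) (hr : Nat.Coprime r q) {d : ℕ} (H : QNewKill N' q p d) :
    QNewKill N q p (levelDeg (Nat.mul_dvd_mul_right h q) * d) := by
  intro A hA k x hx hnew hfix
  have hn : p ^ k ≠ 0 := pow_ne_zero k hp.ne_zero
  have h1 := H A hA k (pullLevel (Nat.mul_dvd_mul_right h q) x) (pullLevel_mem_Tors _ hx)
    (isQNew_pullLevel_dvd h hqN r hN' hr hn hx hnew)
    (fun σ hσ => by rw [← pullLevel_smul, hfix σ hσ])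
  rw [← map_zsmul] at h1
  have h2 := smul_eq_zero_of_pullLevel_eq_zero (Nat.mul_dvd_mul_right h q) h1
  rw [smul_smul] at h2
  push_cast
  exact h2

end Transfer

/-- **one prime step** `M r ⟶ M` of the transfer, with the constant `c ∈ {r, r + 1}` -/
theorem qnewKill_prime_step {M q r p d : ℕ} [NeZero M] [NeZero q] [NeZero r] [Fact q.Prime]
    (hp : p.Prime) (hr : r.Prime) (hrq : r ≠ q) (H : QNewKill (M * r * q) q p d) :
    ∃ c : ℕ, (c = r + 1 ∨ c = r) ∧ QNewKill (M * q) q p (c * d) := by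
  have hq : q.Prime := Fact.out
  have h : M * q ∣ M * r * q := ⟨r, by ring⟩
  have hcop : Nat.Coprime r q := (Nat.coprime_primes hr hq).2 hrq
  have key := qnewKill_of_mul (N := M * q) (N' := M * r * q) hp h (Dvd.intro_left M rfl) r
    (by ring) hcop H
  have e : M * r * q * q = M * q * q * r := by ring
  have hd : M * q * q ∣ M * q * q * r := Dvd.intro r rfl
  have hdeg := levelDeg_congr e (Nat.mul_dvd_mul_right h q) hd
  rw [hdeg] at key
  exact ⟨levelDeg hd, levelDeg_prime_step (M * q * q) r hr hd, key⟩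

/-- **(C36) at the auxiliary levels, explicit** -/
theorem qnewKill_of_isAuxLevel {M q p : ℕ} [NeZero M] [NeZero q] [NeZero (M * q)] (hq : q.Prime)
    (hqM : ¬ q ∣ M) (hp : p.Prime) (hqp : q ≠ p) (haux : Fin.IsAuxLevel M q) :
    QNewKill (M * q) q p ((q ^ 2 - 1) ^ 2) := by
  intro A hA k x hx hnew hfix
  haveI : Fact q.Prime := ⟨hq⟩
  haveI : NeZero (M * q * q) := ⟨Nat.mul_ne_zero (NeZero.ne (M * q)) (NeZero.ne q)⟩
  obtain ⟨g, hF, -⟩ := Gin0.exists_isCurveOfGenus_FBar (M * q * q)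
  obtain ⟨gM, hFk⟩ := S37lib.B3.exists_isCurveOfGenus_FRes (A := A) M hqM hA
  haveI : HasPrincipalDivisors (IsLocalRing.ResidueField A) (FRes A M) := hFk.hasPrincipalDivisors
  haveI : HasPrincipalDivisors (IsLocalRing.ResidueField (Wfix A)) (FRes A M) :=
    hasPrincipalDivisors_resW hq hA hFk.hasPrincipalDivisors
  haveI : HasPrincipalDivisors Qb (FBar M) := S37lib.HeckeInst.hasPrincipalDivisors_FB M
  haveI : HasPrincipalDivisors Qb (FBar (M * q)) := S37lib.HeckeInst.hasPrincipalDivisors_FB (M * q)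
  have hqn : Nat.Coprime q (p ^ k) :=
    Nat.Coprime.pow_right k ((Nat.coprime_primes hq hp).2 hqp)
  have hG := J.instGoal_of_modBricks (pow_ne_zero k hp.ne_zero) hqn hF hFk
    (J.modBricks (hqM := hqM) (hA := hA) haux hF hFk (J.count_of_isAuxLevel hqM hA haux hF hFk))
  exact J.smul_eq_zero_of_instGoal hG hx hnew hfix

/-- a class killed by `p` and by an integer prime to `p` vanishes -/
theorem eq_zero_of_smul_of_coprime {G : Type*} [AddCommGroup G] {x : G} {p c : ℕ}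
    (hcop : Nat.Coprime c p) (hp : (p : ℤ) • x = 0) (hc : (c : ℤ) • x = 0) : x = 0 := by
  have h := Nat.Coprime.isCoprime hcop
  obtain ⟨u, v, huv⟩ := h
  have : ((u * c + v * p : ℤ)) • x = 0 := by
    rw [add_smul, mul_smul, mul_smul, hc, hp, smul_zero, smul_zero, add_zero]
  rw [huv, one_smul] at this
  exact this

/-- **`q ∈ {2, 3}`, `p ≥ 5`: the `q`-new inertia-fixed part of `J₀(M q²)[p]` vanishes.** -/
theorem qnew_eq_zero_small {M q p : ℕ} [NeZero M] [NeZero q] [NeZero (M * q)] (hq : q.Prime)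
    (hq23 : q = 2 ∨ q = 3) (hqM : ¬ q ∣ M) (hp : p.Prime) (hp5 : 5 ≤ p)
    (A : ValuationSubring Qb) (hA : A.LiesOverPrime q) {x : JZero (M * q * q)}
    (hx : (p : ℤ) • x = 0) (hnew : IsQNew (M * q) q x)
    (hfix : ∀ σ ∈ A.inertiaSubgroupIn ℚ, σ • x = x) : x = 0 := by
  haveI : Fact q.Prime := ⟨hq⟩
  have hxT : x ∈ Tors (M * q * q) (p ^ 1) := by
    rw [Submodule.mem_torsionBy_iff, pow_one]
    exact hx
  -- the other small prime
  obtain ⟨r, hr, hrq, hr23, haux, hd⟩ : ∃ r : ℕ, r.Prime ∧ r ≠ q ∧ (r = 2 ∨ r = 3) ∧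
      Fin.IsAuxLevel (M * r * r) q ∧ ∀ ℓ : ℕ, ℓ.Prime → ℓ ∣ (q ^ 2 - 1) ^ 2 → ℓ = 2 ∨ ℓ = 3 := by
    rcases hq23 with rfl | rfl
    · refine ⟨3, Nat.prime_three, by norm_num, Or.inr rfl,
        Or.inr (Or.inl ⟨rfl, ⟨M, by ring⟩⟩), fun ℓ hℓ hd => ?_⟩
      right
      have h9 : ((2 : ℕ) ^ 2 - 1) ^ 2 = 3 ^ 2 := by norm_num
      rw [h9] at hd
      exact (Nat.prime_dvd_prime_iff_eq hℓ Nat.prime_three).1 (hℓ.dvd_of_dvd_pow hd)
    · refine ⟨2, Nat.prime_two, by norm_num, Or.inl rfl,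
        Or.inr (Or.inr ⟨rfl, ⟨M, by ring⟩⟩), fun ℓ hℓ hd => ?_⟩
      left
      have h64 : ((3 : ℕ) ^ 2 - 1) ^ 2 = 2 ^ 6 := by norm_num
      rw [h64] at hd
      exact (Nat.prime_dvd_prime_iff_eq hℓ Nat.prime_two).1 (hℓ.dvd_of_dvd_pow hd)
  haveI : NeZero r := ⟨hr.ne_zero⟩
  have hqMrr : ¬ q ∣ M * r * r := by
    intro h
    rcases (Nat.Prime.dvd_mul hq).1 h with h1 | h1
    · rcases (Nat.Prime.dvd_mul hq).1 h1 with h2 | h2
      · exact hqM h2
      · exact hrq ((Nat.prime_dvd_prime_iff_eq hq hr).1 h2).symm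
    · exact hrq ((Nat.prime_dvd_prime_iff_eq hq hr).1 h1).symm
  have hqp : q ≠ p := by
    rcases hq23 with rfl | rfl <;> omega
  have H0 := qnewKill_of_isAuxLevel (M := M * r * r) hq hqMrr hp hqp haux
  obtain ⟨c₂, hc₂, H1⟩ := qnewKill_prime_step (M := M * r) hp hr hrq H0
  obtain ⟨c₁, hc₁, H2⟩ := qnewKill_prime_step (M := M) hp hr hrq H1
  have hkill := H2 A hA 1 x hxT hnew hfix
  -- the constant is prime to `p`
  have hsmall : ∀ c : ℕ, (c = r + 1 ∨ c = r) → ¬ p ∣ c := by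
    intro c hc hpc
    have hle := Nat.le_of_dvd (by rcases hc with rfl | rfl <;> rcases hr23 with rfl | rfl <;> norm_num) hpc
    rcases hc with rfl | rfl <;> rcases hr23 with rfl | rfl <;> omega
  have hpd : ¬ p ∣ (q ^ 2 - 1) ^ 2 := by
    intro h
    rcases hd p hp h with rfl | rfl <;> omega
  have hcop : Nat.Coprime (c₁ * (c₂ * (q ^ 2 - 1) ^ 2)) p := by
    rw [Nat.coprime_comm, Nat.Prime.coprime_iff_not_dvd hp]
    intro h
    rcases (Nat.Prime.dvd_mul hp).1 h with h1 | h1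
    · exact hsmall c₁ hc₁ h1
    · rcases (Nat.Prime.dvd_mul hp).1 h1 with h2 | h2
      · exact hsmall c₂ hc₂ h2
      · exact hpd h2
  exact eq_zero_of_smul_of_coprime hcop hx hkill

/-- **MP(q²) for `q ∈ {2, 3}` and `p ≥ 5`** (level written `M * q * q`). -/
theorem mazurQ2Small (M q p : ℕ) [NeZero (M * q * q)] (hM : 0 < M) (hq : q.Prime)
    (hq23 : q = 2 ∨ q = 3) (hqM : ¬ q ∣ M) (hp : p.Prime) (hp5 : 5 ≤ p)
    (A : ValuationSubring Qb) (hA : A.LiesOverPrime q)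
    (a : ℕ → ℤ) (S : ℕ → Prop) (hS : ∀ ℓ, S ℓ → ℓ.Prime ∧ ¬ ℓ ∣ M * q * q ∧ ℓ ≠ p)
    (x : JZero (M * q * q)) (hx : x ∈ tors (M * q * q) (p : ℤ)) (hx0 : x ≠ 0)
    (hfix : ∀ σ ∈ IA A, σ • x = x)
    (heig : ∀ (ℓ : ℕ) (hℓ : ℓ.Prime), S ℓ →
      heckeOperatorBar (M * q * q) ⟨ℓ, hℓ⟩ x = (a ℓ) • x) :
    ∃ (g : CuspForm (Gamma0 (M * q)) 2) (𝔪 : Ideal Zbar),
      g.IsNormalizedEigenform ∧ 𝔪.IsMaximal ∧ (p : Zbar) ∈ 𝔪 ∧ CongruentTo g 𝔪 a S := by
  haveI : Fact q.Prime := ⟨hq⟩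
  haveI : NeZero M := ⟨hM.ne'⟩
  haveI : NeZero q := ⟨hq.ne_zero⟩
  haveI : NeZero (M * q) := ⟨Nat.mul_ne_zero hM.ne' hq.ne_zero⟩
  have hpZ : (p : ℤ) • x = 0 := (Submodule.mem_torsionBy_iff _ _).1 hx
  by_cases hnew : IsQNew (M * q) q x
  · exact absurd (qnew_eq_zero_small hq hq23 hqM hp hp5 A hA hpZ hnew hfix) hx0
  · exact exists_eigenform_of_not_isQNew hp a S hS hpZ hnew heig

end Fermat.Agent.S59lib.LevelQ2
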