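/-
S59lib / LevelQ2 / Assembly  (helper1)  — Project I: BLOCK LLsq FROM ITS LAST TWO EXTERNAL STATEMENTS.

`llsqBlock_of_stmts : AuxPrimeStmt → LLsqTwoThreeStmt → LLsqBlock`   (`LLsqBlock` of helper7's `S59lib/Iface`).

* `q ≥ 5` : add an auxiliary prime `r ≡ 11 (mod 12)` to the level (`ν₂(M r) = ν₃(M r) = 0`), apply `mazurQ2Free` at
  `(M r, q, p)`, remove `r` (`AuxPrime.removeAux`: no level raising at `r`);
* `q ∈ {2, 3}`, `p = 5` : `mazurQ2Small` (main's `S36lib` with explicit constants), no auxiliary prime;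
* `(p, q) = (3, 2)` : helper3's `LLsqTwoThreeStmt` at the level `M r` (`r ≡ 2 mod 3`), then remove `r`.

`AuxPrimeStmt` (Chebotarev in `ℚ(W[p], ζ₁₂)`) and `LLsqTwoThreeStmt` (`S3Proj`) are the two open inputs.
-/
import Fermat.Agent.S59lib.LevelQ2.Small
import Fermat.Agent.S59lib.LevelQ2.Reduce
import Fermat.Agent.S59lib.AuxPrime.Remove
import Fermat.Agent.S59lib.Iface

set_option autoImplicit false
set_option linter.unusedSectionVars false
set_option linter.unusedVariables false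
set_option linter.style.haveILetI false

noncomputable section

namespace Fermat.Agent.S59lib.LevelQ2

open ModularCurve CongruenceSubgroup
open Fermat.Agent.S18lib Fermat.Agent.S28lib
open Fermat.Agent.S19lib Fermat.Agent.S33lib Fermat.Agent.S44lib
open WeierstrassCurve WeierstrassCurve.Affine WeierstrassCurve.Affine.Point

local notation "Qb" => AlgebraicClosure ℚ
local notation "GQ" => (AlgebraicClosure ℚ ≃ₐ[ℚ] AlgebraicClosure ℚ)
local notation "Zbar" => integralClosure ℤ ℂ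

/-! ### elliptic-free levels -/

theorem sq_add_one_ne_zero_of_mod_four {r : ℕ} [Fact r.Prime] (hr4 : r % 4 = 3) (x : ZMod r) :
    x ^ 2 + 1 ≠ 0 := by
  intro h
  have h1 : IsSquare (-1 : ZMod r) := ⟨x, by linear_combination -h⟩
  exact (ZMod.exists_sq_eq_neg_one_iff.1 h1) hr4

theorem sq_add_self_add_one_ne_zero_of_mod_three {r : ℕ} [hr : Fact r.Prime] (hr3 : r % 3 = 2)
    (x : ZMod r) : x ^ 2 + x + 1 ≠ 0 := by
  intro h
  have hx3 : x ^ 3 = 1 := by linear_combination (x - 1) * h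
  have hx1 : x ≠ 1 := by
    rintro rfl
    have h3 : ((3 : ℕ) : ZMod r) = 0 := by
      push_cast
      linear_combination h
    rw [ZMod.natCast_eq_zero_iff] at h3
    have := (Nat.prime_dvd_prime_iff_eq hr.out Nat.prime_three).1 h3
    omega
  have hx0 : x ≠ 0 := by
    rintro rfl
    rw [zero_pow (by norm_num)] at hx3
    exact zero_ne_one hx3
  haveI : Fact (Nat.Prime 3) := ⟨Nat.prime_three⟩
  have hord : orderOf x = 3 := orderOf_eq_prime hx3 hx1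
  have h1 : x ^ (r - 1) = 1 := ZMod.pow_card_sub_one_eq_one hx0
  have hdvd : 3 ∣ r - 1 := by
    rw [← hord]
    exact orderOf_dvd_of_pow_eq_one h1
  have := hr.out.two_le
  omega

/-- a level divisible by a prime `r ≡ 11 (mod 12)` has no elliptic points -/
theorem nu_eq_zero_of_aux {N r : ℕ} (hr : r.Prime) (hr12 : r % 12 = 11) (hrN : r ∣ N) :
    nuTwo N = 0 ∧ nuThree N = 0 := by
  haveI : Fact r.Prime := ⟨hr⟩
  exact ⟨Gin0.nuTwo_eq_zero_of_dvd hrN (sq_add_one_ne_zero_of_mod_four (by omega)),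
    Gin0.nuThree_eq_zero_of_dvd hrN (sq_add_self_add_one_ne_zero_of_mod_three (by omega))⟩

/-! ### from MP(q²) at one triple to level lowering -/

/-- **MP(q²) at a fixed triple `(M, q, p)`** (level written `M * q * q`) -/
def MazurQ2At (M q p : ℕ) [NeZero (M * q * q)] : Prop :=
  ∀ A : ValuationSubring Qb, A.LiesOverPrime q →
    ∀ (a : ℕ → ℤ) (S : ℕ → Prop), (∀ ℓ, S ℓ → ℓ.Prime ∧ ¬ ℓ ∣ M * q * q ∧ ℓ ≠ p) →
      (∃ ℓ, S ℓ ∧ ¬ (p : ℤ) ∣ a ℓ - (ℓ + 1)) →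
      ∀ x ∈ tors (M * q * q) (p : ℤ), x ≠ 0 → (∀ σ ∈ IA A, σ • x = x) →
      (∀ (ℓ : ℕ) (hℓ : ℓ.Prime), S ℓ → heckeOperatorBar (M * q * q) ⟨ℓ, hℓ⟩ x = (a ℓ) • x) →
      ∃ (g : CuspForm (Gamma0 (M * q)) 2) (𝔪 : Ideal Zbar),
        g.IsNormalizedEigenform ∧ 𝔪.IsMaximal ∧ (p : Zbar) ∈ 𝔪 ∧ CongruentTo g 𝔪 a S

/-- **level lowering `M q² → M q` from MP(q²) at `(M, q, p)`** -/
theorem resMod_of_mazurQ2At {p : ℕ} (hp : p.Prime) (hp2 : p ≠ 2) {W : WeierstrassCurve ℤ}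
    (hΔ : W.Δ ≠ 0) (hss : W.IsSemistableModel) (hirr : W.ModRepIsIrreducible p) {M q : ℕ}
    (hM : 0 < M) (hq : q.Prime) (hqp : q ≠ p) [NeZero (M * q * q)] (hMP : MazurQ2At M q p)
    (hres : W.IsResiduallyModularOfLevel p (M * q * q)) :
    W.IsResiduallyModularOfLevel p (M * q) := by
  obtain ⟨f, 𝔪, hf, h𝔪, hp𝔪, hcong⟩ := hres
  have hN0 : M * q * q ≠ 0 := NeZero.ne _
  have hcong' : CongruentTo f 𝔪 W.apOfModel (IsTestPrime W (M * q * q) p) := by
    intro ℓ hℓ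
    exact hcong ℓ hℓ.1 hℓ.2.1 hℓ.2.2.1 hℓ.2.2.2
  obtain ⟨V, e, hV, heq, heig⟩ := q1WStmt p hp hp2 W hΔ hirr (M * q * q) f 𝔪 hf h𝔪 hp𝔪 hcong'
  obtain ⟨A, hA⟩ := Fermat.Agent.S13lib.exists_liesOverPrime hq
  obtain ⟨x₀, hx₀, hx₀fix⟩ := inertiaFixedWStmt p hp hp2 W hΔ hss q hq hqp A hA
  obtain ⟨ℓ₀, hℓ₀, hℓ₀ne⟩ := nonEisWStmt p hp hp2 W hΔ hirr (M * q * q) (Nat.pos_of_ne_zero hN0)
  have hx0 : ((e x₀ : V) : JZero (M * q * q)) ≠ 0 := by
    intro h0
    have : e x₀ = 0 := Subtype.ext h0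
    exact hx₀ (e.map_eq_zero_iff.1 this)
  have hxfix : ∀ σ ∈ IA A, σ • ((e x₀ : V) : JZero (M * q * q)) = ((e x₀ : V) : JZero (M * q * q)) := by
    intro σ hσ
    rw [← heq σ x₀]
    have : σ • x₀ = x₀ := Subtype.ext (hx₀fix σ hσ)
    rw [this]
  obtain ⟨g, 𝔪', hg, h𝔪', hp𝔪', hgc⟩ := hMP A hA W.apOfModel
    (IsTestPrime W (M * q * q) p) (fun ℓ hℓ => ⟨hℓ.1, hℓ.2.2.1, hℓ.2.2.2⟩) ⟨ℓ₀, hℓ₀, hℓ₀ne⟩
    ((e x₀ : V) : JZero (M * q * q)) (hV (e x₀).2) hx0 hxfix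
    (fun ℓ hℓ hS => heig ℓ hℓ hS _ (e x₀).2)
  refine ⟨g, 𝔪', hg, h𝔪', hp𝔪', fun ℓ hℓ hgood hℓN hℓp => ?_⟩
  refine hgc ℓ ⟨hℓ, hgood, ?_, hℓp⟩
  intro hd
  rcases (Nat.Prime.dvd_mul hℓ).1 hd with h1 | h1
  · exact hℓN h1
  · exact hℓN (h1.trans (Dvd.intro_left M rfl))

/-! ### the two external statements -/

/-- **the auxiliary prime** (Chebotarev in `ℚ(W[p], ζ₁₂)`): `r ≡ 11 (mod 12)`, good for `W`, prime to a given
bound, without level raising at `r`. -/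
def AuxPrimeStmt : Prop :=
  ∀ (p : ℕ), (p = 3 ∨ p = 5) → ∀ W : WeierstrassCurve ℤ, W.Δ ≠ 0 → W.IsSemistableModel →
    W.ModRepIsIrreducible p → ∀ B : ℕ, 0 < B →
      ∃ r : ℕ, r.Prime ∧ ¬ r ∣ B ∧ r ≠ p ∧ ¬ (r : ℤ) ∣ W.Δ ∧ r % 12 = 11 ∧
        ¬ (p : ℤ) ∣ W.apOfModel r ^ 2 - ((r : ℤ) + 1) ^ 2

/-- **LLsq at `(p, q) = (3, 2)`** (helper3, `S3Proj`) -/
def LLsqTwoThreeStmt : Prop :=
  ∀ W : WeierstrassCurve ℤ, W.Δ ≠ 0 → W.ModRepIsIrreducible 3 → ∀ M' : ℕ, 0 < M' → Odd M' →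
    (∃ r : ℕ, r.Prime ∧ r ∣ M' ∧ r % 3 = 2) →
    W.IsResiduallyModularOfLevel 3 (4 * M') → W.IsResiduallyModularOfLevel 3 (2 * M')

/-- **level lowering `q² → q` for `p ∈ {3, 5}`** -/
def LevelQ2Block35 : Prop :=
  ∀ (p : ℕ), (p = 3 ∨ p = 5) → ∀ W : WeierstrassCurve ℤ, W.Δ ≠ 0 → W.IsSemistableModel →
    W.ModRepIsIrreducible p → ∀ M q : ℕ, 0 < M → q.Prime → q ≠ p → ¬ q ∣ M →
      W.IsResiduallyModularOfLevel p (M * q ^ 2) → W.IsResiduallyModularOfLevel p (M * q)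

/-- **Block LLsq (`p ∈ {3, 5}`) from the auxiliary prime and the case `(3, 2)`.** -/
theorem levelQ2Block35_of_stmts (hAux : AuxPrimeStmt) (h23 : LLsqTwoThreeStmt) : LevelQ2Block35 := by
  intro p hp35 W hΔ hss hirr M q hM hq hqp hqM hres
  have hp : p.Prime := by rcases hp35 with rfl | rfl <;> norm_num
  have hp2 : p ≠ 2 := by rcases hp35 with rfl | rfl <;> norm_num
  have e0 : M * q ^ 2 = M * q * q := by ring
  rw [e0] at hres
  have hMqq0 : M * q * q ≠ 0 := Nat.mul_ne_zero (Nat.mul_ne_zero hM.ne' hq.ne_zero) hq.ne_zero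
  -- the auxiliary prime
  obtain ⟨r, hr, hrB, hrp, hrΔ, hr12, hrlr⟩ := hAux p hp35 W hΔ hss hirr (M * q)
    (Nat.mul_pos hM hq.pos)
  have hrM : ¬ r ∣ M := fun h => hrB (Dvd.dvd.mul_right h q)
  have hrq : r ≠ q := fun h => hrB (h ▸ Dvd.intro_left M rfl)
  have hrMq : ¬ r ∣ M * q := hrB
  have hqMr : ¬ q ∣ M * r := by
    intro h
    rcases (Nat.Prime.dvd_mul hq).1 h with h1 | h1
    · exact hqM h1
    · exact hrq ((Nat.prime_dvd_prime_iff_eq hq hr).1 h1).symm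
  have remove : W.IsResiduallyModularOfLevel p (M * q * r) →
      W.IsResiduallyModularOfLevel p (M * q) := fun h =>
    Fermat.Agent.S59lib.AuxPrime.removeAux p hp W hΔ (M * q) r
      (Nat.mul_ne_zero hM.ne' hq.ne_zero) hr hrMq hrp hrΔ hrlr h
  rcases Fermat.Agent.S36lib.Fin.prime_cases hq with h2 | h3 | h5
  · -- `q = 2`
    subst h2
    rcases hp35 with rfl | rfl
    · -- `(p, q) = (3, 2)`
      apply remove
      have hup := Fermat.Agent.S59lib.AuxPrime.isResiduallyModularOfLevel_mul hMqq0 hr.ne_zero hres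
      have e1 : M * 2 * 2 * r = 4 * (M * r) := by ring
      rw [e1] at hup
      have hodd : Odd (M * r) := by
        rw [Nat.odd_iff]
        have hM2 : M % 2 = 1 := by
          rcases Nat.mod_two_eq_zero_or_one M with h | h
          · exact absurd (Nat.dvd_of_mod_eq_zero h) hqM
          · exact h
        have hr2 : r % 2 = 1 := by omega
        rw [Nat.mul_mod, hM2, hr2]
      have hlow := h23 W hΔ hirr (M * r) (Nat.mul_pos hM hr.pos) hodd
        ⟨r, hr, Dvd.intro_left M rfl, by omega⟩ hup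
      have e2 : 2 * (M * r) = M * 2 * r := by ring
      rw [e2] at hlow
      exact hlow
    · -- `(p, q) = (5, 2)`
      haveI : NeZero (M * 2 * 2) := ⟨hMqq0⟩
      exact resMod_of_mazurQ2At hp hp2 hΔ hss hirr hM hq hqp
        (fun A hA a S hS _ x hx hx0 hfix heig =>
          mazurQ2Small M 2 5 hM hq (Or.inl rfl) hqM hp (le_refl 5) A hA a S hS x hx hx0 hfix heig)
        hres
  · -- `q = 3`
    subst h3
    rcases hp35 with rfl | rfl
    · exact absurd rfl hqp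
    · haveI : NeZero (M * 3 * 3) := ⟨hMqq0⟩
      exact resMod_of_mazurQ2At hp hp2 hΔ hss hirr hM hq hqp
        (fun A hA a S hS _ x hx hx0 hfix heig =>
          mazurQ2Small M 3 5 hM hq (Or.inr rfl) hqM hp (le_refl 5) A hA a S hS x hx hx0 hfix heig)
        hres
  · -- `q ≥ 5`
    apply remove
    have hup := Fermat.Agent.S59lib.AuxPrime.isResiduallyModularOfLevel_mul hMqq0 hr.ne_zero hres
    have e1 : M * q * q * r = M * r * q * q := by ring
    rw [e1] at hup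
    have hMr : 0 < M * r := Nat.mul_pos hM hr.pos
    haveI : NeZero (M * r * q * q) :=
      ⟨Nat.mul_ne_zero (Nat.mul_ne_zero hMr.ne' hq.ne_zero) hq.ne_zero⟩
    obtain ⟨hν2, hν3⟩ := nu_eq_zero_of_aux hr hr12 (Dvd.intro_left M rfl : r ∣ M * r)
    have hlow := resMod_of_mazurQ2At hp hp2 hΔ hss hirr hMr hq hqp
      (fun A hA a S hS hne x hx hx0 hfix heig =>
        mazurQ2Free (M * r) q p hMr hq hqMr hp hqp.symm h5 hν2 hν3 A hA a S hS hne x hx hx0 hfix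
          heig) hup
    have e2 : M * r * q = M * q * r := by ring
    rw [e2] at hlow
    exact hlow

/-- **`LLsqBlock` of `S59lib/Iface` from `LevelQ2Block35`.** -/
theorem llsqBlock_of_levelQ2Block35 (h : LevelQ2Block35) : Fermat.Agent.S59lib.LLsqBlock := by
  intro p hp W hΔ hss hirr M q hM hq hqp hq2 hq3 hres
  obtain ⟨M', rfl⟩ := hq2
  have hM' : 0 < M' := by
    rcases Nat.eq_zero_or_pos M' with h0 | h0
    · rw [h0, mul_zero] at hM
      exact absurd hM (lt_irrefl 0)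
    · exact h0
  have hqM' : ¬ q ∣ M' := by
    intro hd
    apply hq3
    rw [pow_succ]
    exact mul_dvd_mul_left _ hd
  have e1 : q ^ 2 * M' = M' * q ^ 2 := mul_comm _ _
  have e2 : q ^ 2 * M' / q = M' * q := by
    rw [pow_two, mul_assoc, Nat.mul_div_cancel_left _ hq.pos, mul_comm]
  rw [e2]
  rw [e1] at hres
  exact h p hp W hΔ hss hirr M' q hM' hq hqp hqM' hres

/-- **Block LLsq from its last two external statements.** -/
theorem llsqBlock_of_stmts (hAux : AuxPrimeStmt) (h23 : LLsqTwoThreeStmt) :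
    Fermat.Agent.S59lib.LLsqBlock :=
  llsqBlock_of_levelQ2Block35 (levelQ2Block35_of_stmts hAux h23)

end Fermat.Agent.S59lib.LevelQ2
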