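/-
S59lib / LevelQ2 / Final  (helper1)  — Project I: BLOCK LLsq FROM THE AUXILIARY PRIME ALONE.

`llsqBlock_of_auxPrime : AuxPrimeStmt → LLsqBlock` — `Assembly.llsqBlock_of_stmts` with helper3's theorem
`S3Proj.llsqTwoThree` plugged in for the case `(p, q) = (3, 2)`.

**`llsqBlock : LLsqBlock`** — unconditional, with helper4's `BigImg.auxPrime` plugged in.
-/
import Fermat.Agent.S59lib.LevelQ2.Assembly
import Fermat.Agent.S59lib.S3Proj.Main
import Fermat.Agent.S59lib.BigImg.AuxPrime

set_option autoImplicit false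

namespace Fermat.Agent.S59lib.LevelQ2

/-- helper3's R7a is literally `LLsqTwoThreeStmt` -/
theorem llsqTwoThreeStmt : LLsqTwoThreeStmt :=
  fun W hΔ hirr M' hM' hodd hr hres =>
    Fermat.Agent.S59lib.S3Proj.llsqTwoThree W hΔ hirr M' hM' hodd hr hres

/-- **Block LLsq from the auxiliary prime statement alone.** -/
theorem llsqBlock_of_auxPrime (hAux : AuxPrimeStmt) : Fermat.Agent.S59lib.LLsqBlock :=
  llsqBlock_of_stmts hAux llsqTwoThreeStmt

/-- **Block LLsq, unconditional** (helper4's auxiliary prime `BigImg.auxPrime`). -/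
theorem llsqBlock : Fermat.Agent.S59lib.LLsqBlock :=
  llsqBlock_of_auxPrime Fermat.Agent.S59lib.BigImg.auxPrime

end Fermat.Agent.S59lib.LevelQ2
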